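import Fermat.Agent.RT.NC.Socle
import Fermat.Agent.RT.ULimPS
import Mathlib.RingTheory.Polynomial.Basic
import Mathlib.RingTheory.LocalRing.ResidueField.Basic
import Mathlib.RingTheory.AdicCompletion.Noetherian
import Mathlib.RingTheory.MvPowerSeries.Basic

/-!
# From polynomials to power series
-/

set_option autoImplicit false
set_option linter.unusedSectionVars false
set_option linter.style.haveILetI false

open IsLocalRing

namespace Fermat.Agent.RT.NC

open Fermat.Agent.RT.ULim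

section

variable {𝒪 : Type*} [CommRing 𝒪] {n : ℕ}

/-- truncation: every power series is a polynomial plus an element of `(X) ^ M` -/
theorem exists_poly (M : ℕ) (f : MvPowerSeries (Fin n) 𝒪) :
    ∃ q : MvPolynomial (Fin n) 𝒪, f - (q : MvPowerSeries (Fin n) 𝒪) ∈
      Ideal.span (Set.range (MvPowerSeries.X : Fin n → MvPowerSeries (Fin n) 𝒪)) ^ M := by
  classical
  induction M generalizing f with
  | zero => exact ⟨0, by simp⟩
  | succ M ih =>
    choose q hq using fun i => ih (xquot f i)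
    refine ⟨MvPolynomial.C (MvPowerSeries.constantCoeff f) + ∑ i, MvPolynomial.X i * q i, ?_⟩
    have h1 : f - ((MvPolynomial.C (MvPowerSeries.constantCoeff f) +
        ∑ i, MvPolynomial.X i * q i : MvPolynomial (Fin n) 𝒪) : MvPowerSeries (Fin n) 𝒪) =
        ∑ i, MvPowerSeries.X i * (xquot f i - (q i : MvPowerSeries (Fin n) 𝒪)) := by
      conv_lhs => rw [eq_C_add_sum f]
      rw [← MvPolynomial.coeToMvPowerSeries.ringHom_apply (σ := Fin n), map_add, map_sum]
      simp only [map_mul, MvPolynomial.coeToMvPowerSeries.ringHom_apply, MvPolynomial.coe_C,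
        MvPolynomial.coe_X, mul_sub, Finset.sum_sub_distrib]
      have h2 : MvPowerSeries.constantCoeff
          (MvPowerSeries.C (MvPowerSeries.constantCoeff f) +
            ∑ i, MvPowerSeries.X i * xquot f i : MvPowerSeries (Fin n) 𝒪) =
          MvPowerSeries.constantCoeff f := by
        rw [← eq_C_add_sum f]
      rw [h2]
      ring
    rw [h1]
    refine Ideal.sum_mem _ fun i _ => ?_
    rw [pow_succ']
    exact Ideal.mul_mem_mul (Ideal.subset_span ⟨i, rfl⟩) (hq i)

/-- Krull's intersection theorem: ideals are closed -/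
theorem mem_of_forall_mem_sup_pow {A : Type*} [CommRing A] [IsLocalRing A] [IsNoetherianRing A]
    (I : Ideal A) (x : A) (h : ∀ M, x ∈ I ⊔ maximalIdeal A ^ M) : x ∈ I := by
  haveI : IsHausdorff (maximalIdeal A) (A ⧸ I) := inferInstance
  rw [← Ideal.Quotient.eq_zero_iff_mem]
  apply IsHausdorff.haus (inferInstance : IsHausdorff (maximalIdeal A) (A ⧸ I))
  intro M
  obtain ⟨a, ha, b, hb, hab⟩ := Submodule.mem_sup.mp (h M)
  rw [SModEq.zero, ← hab, map_add, Ideal.Quotient.eq_zero_iff_mem.mpr ha, zero_add]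
  have h1 : Ideal.Quotient.mk I b = b • (1 : A ⧸ I) := by
    rw [Algebra.smul_def, mul_one]; rfl
  rw [h1]
  exact Submodule.smul_mem_smul hb trivial

/-- The main passage. -/
theorem comap_le [IsLocalRing 𝒪] [IsNoetherianRing 𝒪] {T : Type*} [CommRing T]
    (ψ : MvPowerSeries (Fin n) 𝒪 →+* T) (b : Ideal T)
    (H : Fin n → MvPolynomial (Fin n) 𝒪)
    (hH : ∀ i, H i - MvPolynomial.X i ^ 3 ∈ Fl 𝒪 n 3)
    (hHb : ∀ i, ψ (H i : MvPowerSeries (Fin n) 𝒪) ∈ b)
    (hmb : ∀ a ∈ maximalIdeal 𝒪, ψ (MvPowerSeries.C a) ∈ b)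
    (N : ℕ) (hN : (Ideal.span (Set.range fun i : Fin n =>
      ψ (MvPowerSeries.X i : MvPowerSeries (Fin n) 𝒪))) ^ N ≤ b)
    (c : MvPolynomial (Fin n) 𝒪)
    (hc : ∀ i, MvPolynomial.X i * c ∈ Ideal.span (Set.range H))
    (hcb : ψ (c : MvPowerSeries (Fin n) 𝒪) ∉ b) :
    b.comap ψ ≤ Ideal.span (Set.range fun i => (H i : MvPowerSeries (Fin n) 𝒪)) ⊔
      (maximalIdeal 𝒪).map (MvPowerSeries.C (σ := Fin n)) := by
  classical
  set I0 := Ideal.span (Set.range fun i => (H i : MvPowerSeries (Fin n) 𝒪)) ⊔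
      (maximalIdeal 𝒪).map (MvPowerSeries.C (σ := Fin n)) with hI0
  let ι : MvPolynomial (Fin n) 𝒪 →+* MvPowerSeries (Fin n) 𝒪 :=
    MvPolynomial.coeToMvPowerSeries.ringHom
  let ρ : MvPolynomial (Fin n) 𝒪 →+* MvPolynomial (Fin n) (ResidueField 𝒪) :=
    MvPolynomial.map (residue 𝒪)
  have hρs : Function.Surjective ρ := MvPolynomial.map_surjective _ residue_surjective
  have hρk : RingHom.ker ρ = (maximalIdeal 𝒪).map MvPolynomial.C := by
    rw [MvPolynomial.ker_map, IsLocalRing.ker_residue]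
  let K' : Ideal (MvPolynomial (Fin n) 𝒪) := b.comap (ψ.comp ι)
  have hK' : ∀ q, q ∈ K' ↔ ψ (q : MvPowerSeries (Fin n) 𝒪) ∈ b := fun q => Iff.rfl
  have hkerK' : RingHom.ker ρ ≤ K' := by
    rw [hρk, Ideal.map_le_iff_le_comap]
    intro a ha
    rw [Ideal.mem_comap, hK', MvPolynomial.coe_C]
    exact hmb a ha
  let K := K'.map ρ
  have hKmem : ∀ q, ρ q ∈ K → q ∈ K' := by
    intro q hq
    obtain ⟨q', hq', hqq'⟩ := (Ideal.mem_map_iff_of_surjective ρ hρs).mp hq
    have h1 : q' - q ∈ K' := hkerK' (by rw [RingHom.mem_ker, map_sub, hqq', sub_self])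
    have := sub_mem hq' h1
    rwa [sub_sub_cancel] at this
  let Hb : Fin n → MvPolynomial (Fin n) (ResidueField 𝒪) := fun i => ρ (H i)
  have hHbFl : ∀ i, Hb i - MvPolynomial.X i ^ 3 ∈ Fl (ResidueField 𝒪) n 3 := by
    intro i m hm
    have h1 : Hb i - MvPolynomial.X i ^ 3 = ρ (H i - MvPolynomial.X i ^ 3) := by
      rw [map_sub, map_pow]
      congr 2
      exact (MvPolynomial.map_X _ i).symm
    rw [h1]
    change MvPolynomial.coeff m (MvPolynomial.map (residue 𝒪) _) = 0
    rw [MvPolynomial.coeff_map, hH i m hm, map_zero]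
  have hspan : (Ideal.span (Set.range H)).map ρ = Ideal.span (Set.range Hb) := by
    rw [Ideal.map_span, ← Set.range_comp]
    rfl
  have hspanX : (Ideal.span (Set.range (MvPolynomial.X : Fin n → MvPolynomial (Fin n) 𝒪))).map ρ =
      Ideal.span (Set.range (MvPolynomial.X :
        Fin n → MvPolynomial (Fin n) (ResidueField 𝒪))) := by
    rw [Ideal.map_span, ← Set.range_comp]
    congr 2
    funext i
    exact MvPolynomial.map_X _ i
  have hHK : Ideal.span (Set.range Hb) ≤ K := by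
    rw [← hspan]
    apply Ideal.map_mono
    rw [Ideal.span_le]
    rintro _ ⟨i, rfl⟩
    exact hHb i
  have hcK : ρ c ∉ K := fun h => hcb (hKmem c h)
  have hcX : ∀ i, MvPolynomial.X i * ρ c ∈ Ideal.span (Set.range Hb) := by
    intro i
    have h1 := Ideal.mem_map_of_mem ρ (hc i)
    rw [hspan, map_mul] at h1
    have h2 : ρ (MvPolynomial.X i) = MvPolynomial.X i := MvPolynomial.map_X _ i
    rwa [h2] at h1
  -- polynomial statement
  have hpoly : ∀ M : ℕ, K' ≤ (Ideal.span (Set.range H) ⊔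
      Ideal.span (Set.range (MvPolynomial.X : Fin n → MvPolynomial (Fin n) 𝒪)) ^ M) ⊔
        (maximalIdeal 𝒪).map MvPolynomial.C := by
    intro M q hq
    have h1 := le_sup_pow Hb hHbFl K hHK (ρ c) hcX hcK M (Ideal.mem_map_of_mem ρ hq)
    rw [← hspan, ← hspanX, ← Ideal.map_pow, ← Ideal.map_sup] at h1
    have h2 : q ∈ Ideal.comap ρ (Ideal.map ρ (Ideal.span (Set.range H) ⊔
      Ideal.span (Set.range (MvPolynomial.X : Fin n → MvPolynomial (Fin n) 𝒪)) ^ M)) := h1
    rw [Ideal.comap_map_of_surjective ρ hρs] at h2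
    have h3 : Ideal.comap ρ ⊥ = RingHom.ker ρ := rfl
    rw [h3, hρk] at h2
    exact h2
  -- transport to power series
  have hps : ∀ M : ℕ, ∀ q ∈ K', (q : MvPowerSeries (Fin n) 𝒪) ∈ I0 ⊔
      Ideal.span (Set.range (MvPowerSeries.X : Fin n → MvPowerSeries (Fin n) 𝒪)) ^ M := by
    intro M q hq
    have h1 := Ideal.mem_map_of_mem ι (hpoly M hq)
    rw [Ideal.map_sup, Ideal.map_sup, Ideal.map_span, ← Set.range_comp, Ideal.map_pow,
      Ideal.map_span, ← Set.range_comp, Ideal.map_map] at h1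
    have h2 : ι.comp MvPolynomial.C = MvPowerSeries.C (σ := Fin n) (R := 𝒪) := by
      ext a : 1
      exact MvPolynomial.coe_C a
    have h3 : (ι ∘ (MvPolynomial.X : Fin n → MvPolynomial (Fin n) 𝒪)) =
        (MvPowerSeries.X : Fin n → MvPowerSeries (Fin n) 𝒪) := by
      funext i
      exact MvPolynomial.coe_X i
    have h4 : (ι ∘ H) = fun i => (H i : MvPowerSeries (Fin n) 𝒪) := rfl
    rw [h2, h3, h4] at h1
    have h5 : Ideal.span (Set.range fun i => (H i : MvPowerSeries (Fin n) 𝒪)) ⊔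
        Ideal.span (Set.range (MvPowerSeries.X : Fin n → MvPowerSeries (Fin n) 𝒪)) ^ M ⊔
        (maximalIdeal 𝒪).map (MvPowerSeries.C (σ := Fin n)) ≤
        I0 ⊔ Ideal.span (Set.range (MvPowerSeries.X : Fin n → MvPowerSeries (Fin n) 𝒪)) ^ M := by
      refine sup_le (sup_le ?_ ?_) ?_
      · exact le_sup_left.trans (le_sup_left (a := I0))
      · exact le_sup_right
      · exact le_sup_right.trans (le_sup_left (a := I0))
    exact h5 h1
  have hXle : Ideal.span (Set.range (MvPowerSeries.X : Fin n → MvPowerSeries (Fin n) 𝒪)) ≤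
      maximalIdeal (MvPowerSeries (Fin n) 𝒪) := by
    rw [Ideal.span_le]
    rintro _ ⟨i, rfl⟩
    exact X_mem_maximalIdeal i
  intro g hg
  apply mem_of_forall_mem_sup_pow
  intro M
  obtain ⟨q, hq⟩ := exists_poly (max M N) g
  have hq1 : ψ (g - (q : MvPowerSeries (Fin n) 𝒪)) ∈ b := by
    apply hN
    have h1 := Ideal.mem_map_of_mem ψ (Ideal.pow_le_pow_right (le_max_right M N) hq)
    rw [Ideal.map_pow, Ideal.map_span, ← Set.range_comp] at h1
    exact h1
  have hqK : q ∈ K' := by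
    rw [hK']
    rw [map_sub] at hq1
    have := sub_mem (show ψ g ∈ b from hg) hq1
    rwa [sub_sub_cancel] at this
  have h2 : g = (g - (q : MvPowerSeries (Fin n) 𝒪)) + (q : MvPowerSeries (Fin n) 𝒪) := by ring
  rw [h2]
  refine add_mem (Ideal.mem_sup_right ?_) ?_
  · exact Ideal.pow_right_mono hXle M (Ideal.pow_le_pow_right (le_max_left M N) hq)
  · exact (sup_le_sup_left (Ideal.pow_right_mono hXle M) _) (hps M q hqK)

end

end Fermat.Agent.RT.NC
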