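import Fermat.Agent.RT.NC.Syzygy

/-!
# The variables of a power series ring form a regular sequence; the socle lemma
-/

set_option autoImplicit false
set_option linter.unusedSectionVars false

namespace Fermat.Agent.RT.NC

open Matrix MvPowerSeries

section regular

variable {𝒪 : Type*} [CommRing 𝒪] {r : ℕ}

/-- the ideal of power series all of whose monomials involve one of the first `k` variables -/
def coeffIdeal (𝒪 : Type*) [CommRing 𝒪] (r k : ℕ) : Ideal (MvPowerSeries (Fin r) 𝒪) where
  carrier := {f | ∀ n : Fin r →₀ ℕ, (∀ i : Fin r, i.val < k → n i = 0) → coeff n f = 0}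
  add_mem' := by
    intro a b ha hb n hn
    rw [map_add, ha n hn, hb n hn, add_zero]
  zero_mem' := by intro n hn; simp
  smul_mem' := by
    classical
    intro c f hf n hn
    simp only [smul_eq_mul, coeff_mul]
    refine Finset.sum_eq_zero fun p hp => ?_
    rw [Finset.mem_antidiagonal] at hp
    rw [hf p.2, mul_zero]
    intro i hi
    have := hn i hi
    rw [← hp] at this
    simp at this
    exact this.2

theorem mem_coeffIdeal {k : ℕ} (f : MvPowerSeries (Fin r) 𝒪) :
    f ∈ coeffIdeal 𝒪 r k ↔
      ∀ n : Fin r →₀ ℕ, (∀ i : Fin r, i.val < k → n i = 0) → coeff n f = 0 := Iff.rfl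

theorem span_eq_coeffIdeal (k : ℕ) (hk : k ≤ r) :
    Ideal.span ((fun i : Fin r => (X i : MvPowerSeries (Fin r) 𝒪)) '' {i | i.val < k}) =
      coeffIdeal 𝒪 r k := by
  apply le_antisymm
  · rw [Ideal.span_le]
    rintro _ ⟨i, hi, rfl⟩
    intro n hn
    exact (X_dvd_iff.mp (dvd_refl (X i : MvPowerSeries (Fin r) 𝒪))) n (hn i hi)
  · induction k with
    | zero =>
      intro f hf
      have : f = 0 := by
        ext n
        exact hf n (by simp)
      rw [this]; exact zero_mem _
    | succ k ih =>
      intro f hf
      let j : Fin r := ⟨k, hk⟩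
      let f1 : MvPowerSeries (Fin r) 𝒪 := fun n => if n j = 0 then 0 else coeff n f
      have hf1 : ∀ n, coeff n f1 = if n j = 0 then 0 else coeff n f := fun n => rfl
      have h1 : f1 ∈ Ideal.span
          ((fun i : Fin r => (X i : MvPowerSeries (Fin r) 𝒪)) '' {i | i.val < k + 1}) := by
        have : (X j : MvPowerSeries (Fin r) 𝒪) ∣ f1 := by
          rw [X_dvd_iff]
          intro m hm
          rw [hf1, if_pos hm]
        refine Ideal.mem_of_dvd _ this (Ideal.subset_span ⟨j, ?_, rfl⟩)
        simp [j]
      have h2 : f - f1 ∈ Ideal.span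
          ((fun i : Fin r => (X i : MvPowerSeries (Fin r) 𝒪)) '' {i | i.val < k + 1}) := by
        refine Ideal.span_mono (Set.image_mono ?_) (ih (by omega) (x := f - f1) ?_)
        · intro i hi
          simp only [Set.mem_ofPred_eq] at hi ⊢
          omega
        · intro n hn
          rw [map_sub, hf1]
          split_ifs with h
          · rw [sub_zero]
            apply hf n
            intro i hi
            rcases Nat.lt_succ_iff_lt_or_eq.mp hi with h' | h'
            · exact hn i h'
            · have : i = j := Fin.ext h'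
              rw [this]; exact h
          · exact sub_self _
      have := add_mem h2 h1
      simpa using this

theorem seqReg_X : SeqReg (fun i : Fin r => (X i : MvPowerSeries (Fin r) 𝒪)) := by
  intro m f hf
  have hset : {k : Fin r | k < m} = {k : Fin r | k.val < m.val} := by
    rfl
  rw [hset, span_eq_coeffIdeal m.val m.2.le, mem_coeffIdeal] at hf ⊢
  intro n hn
  have h1 := hf (Finsupp.single m 1 + n) (by
    intro j hj
    have : m ≠ j := by
      rintro rfl; exact lt_irrefl _ hj
    simp [this, hn j hj])
  rw [mul_comm] at h1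
  change coeff _ (monomial (Finsupp.single m 1) 1 * f) = 0 at h1
  rw [coeff_add_monomial_mul, one_mul] at h1
  exact h1

theorem kosExact_X : KosExact (fun i : Fin r => (X i : MvPowerSeries (Fin r) 𝒪)) :=
  kosExact_of_seqReg seqReg_X

end regular

section socle

variable {k : Type*} [CommRing k] [Nontrivial k] {n : ℕ}

/-- every power series in the ideal `(X_j ^ M)` has zero coefficient at `(M - 1, …, M - 1)`. -/
theorem coeff_eq_zero_of_mem_span_X_pow {M : ℕ} (f : MvPowerSeries (Fin n) k)
    (hf : f ∈ Ideal.span (Set.range fun j : Fin n => (X j : MvPowerSeries (Fin n) k) ^ M))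
    (e : Fin n →₀ ℕ) (he : ∀ j, e j < M) : coeff e f = 0 := by
  classical
  induction hf using Submodule.span_induction with
  | mem f hf =>
    obtain ⟨j, rfl⟩ := hf
    rw [coeff_X_pow, if_neg]
    intro h
    have := he j
    rw [h] at this
    simp at this
  | zero => simp
  | add f g _ _ hf hg => rw [map_add, hf, hg, add_zero]
  | smul a f hf' _ =>
    -- use the stronger statement for the generators
    rw [smul_eq_mul]
    have key : ∀ f ∈ Ideal.span (Set.range fun j : Fin n => (X j : MvPowerSeries (Fin n) k) ^ M),
        ∀ e : Fin n →₀ ℕ, (∀ j, e j < M) → coeff e f = 0 := by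
      intro f hf
      induction hf using Submodule.span_induction with
      | mem f hf =>
        obtain ⟨j, rfl⟩ := hf
        intro e he
        rw [coeff_X_pow, if_neg]
        intro h
        have := he j
        rw [h] at this
        simp at this
      | zero => intro e _; simp
      | add f g _ _ hf hg => intro e he; rw [map_add, hf e he, hg e he, add_zero]
      | smul a f _ hf =>
        intro e he
        rw [smul_eq_mul, coeff_mul]
        refine Finset.sum_eq_zero fun p hp => ?_
        rw [Finset.mem_antidiagonal] at hp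
        rw [hf p.2, mul_zero]
        intro j
        have h1 := he j
        rw [← hp, Finsupp.add_apply] at h1
        omega
    exact key _ (Ideal.mul_mem_left _ _ hf') e he

/-- **The socle lemma**. If `f = a X` and all `X_j ^ M` are in `(f)` then `det a ∉ (f)`. -/
theorem det_notMem_span (f : Fin n → MvPowerSeries (Fin n) k)
    (a : Matrix (Fin n) (Fin n) (MvPowerSeries (Fin n) k))
    (ha : a *ᵥ (fun i => X i) = f) (M : ℕ) (hM : 1 ≤ M)
    (hX : ∀ j, (X j : MvPowerSeries (Fin n) k) ^ M ∈ Ideal.span (Set.range f)) :
    a.det ∉ Ideal.span (Set.range f) := by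
  classical
  intro hdet
  -- the matrix `b`
  have hb : ∀ j, ∃ b : Fin n → MvPowerSeries (Fin n) k, ∑ i, b i * f i = X j ^ M := by
    intro j
    obtain ⟨b, hb⟩ := (Ideal.mem_span_range_iff_exists_fun).mp (hX j)
    exact ⟨b, hb⟩
  choose b hb using hb
  let B : Matrix (Fin n) (Fin n) (MvPowerSeries (Fin n) k) := b
  have hB : B *ᵥ f = fun j => X j ^ M := by
    funext j
    exact hb j
  set g : Fin n → MvPowerSeries (Fin n) k := fun j => X j ^ M with hg
  set I := Ideal.span (Set.range g) with hI
  let D : Matrix (Fin n) (Fin n) (MvPowerSeries (Fin n) k) := diagonal fun j => X j ^ (M - 1)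
  have hD : D *ᵥ (fun i => X i) = g := by
    funext j
    rw [mulVec_diagonal, ← pow_succ, Nat.sub_add_cancel hM]
  have hBa : (B * a) *ᵥ (fun i => X i) = g := by
    rw [← mulVec_mulVec, ha, hB]
  have h1 : (B * a).det - D.det ∈ I := by
    refine det_sub_det_mem kosExact_X (B * a) D I ?_ (hBa.trans hD.symm)
    intro l
    rw [hBa]
    exact Ideal.subset_span ⟨l, rfl⟩
  have h2 : (B * a).det ∈ I := by
    rw [det_mul]
    obtain ⟨c, hc⟩ := (Ideal.mem_span_range_iff_exists_fun).mp hdet
    rw [← hc, Finset.mul_sum]
    refine Ideal.sum_mem _ fun i _ => ?_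
    have h3 : B.det * (c i * f i) = c i * (B.det * f i) := by ring
    rw [h3]
    refine Ideal.mul_mem_left _ _ ?_
    have h4 : (adjugate B *ᵥ g) i = B.det * f i := by
      rw [← hB, mulVec_mulVec, adjugate_mul, smul_mulVec, one_mulVec]
      rfl
    rw [← h4, mulVec, dotProduct]
    exact Ideal.sum_mem _ fun j _ => Ideal.mul_mem_left _ _ (Ideal.subset_span ⟨j, rfl⟩)
  have h3 : D.det ∈ I := by
    have := sub_mem h2 h1
    simpa using this
  have h4 : D.det = monomial (Finsupp.equivFunOnFinite.symm fun _ => M - 1) (1 : k) := by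
    rw [det_diagonal]
    have h5 : ∀ s : Finset (Fin n), ∏ j ∈ s, (X j : MvPowerSeries (Fin n) k) ^ (M - 1) =
        monomial (∑ j ∈ s, Finsupp.single j (M - 1)) (1 : k) := by
      intro s
      induction s using Finset.induction_on with
      | empty => simp
      | insert i s hi ih =>
        rw [Finset.prod_insert hi, Finset.sum_insert hi, ih, X_pow_eq, monomial_mul_monomial,
          one_mul]
    rw [h5]
    have h6 : ∑ j : Fin n, Finsupp.single j (M - 1) =
        Finsupp.equivFunOnFinite.symm fun _ => M - 1 := by
      ext j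
      rw [Finsupp.finsetSum_apply]
      simp only [Finsupp.single_apply, Finsupp.equivFunOnFinite_symm_apply_apply]
      simp
    rw [h6]
  have h5 := coeff_eq_zero_of_mem_span_X_pow D.det h3
    (Finsupp.equivFunOnFinite.symm fun _ => M - 1) (fun j => by simp; omega)
  rw [h4, coeff_monomial_same] at h5
  exact one_ne_zero h5

end socle

end Fermat.Agent.RT.NC
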