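import Fermat.Agent.RT.NC.Linear
import Fermat.Agent.RT.NC.PowerSeries
import Fermat.Agent.RT.NC.PolyPass
import Fermat.Agent.RT.MvEval
import Mathlib.RingTheory.Artinian.Ring
import Mathlib.RingTheory.HopkinsLevitzki
import Mathlib.RingTheory.LocalRing.Quotient

/-!
# Complete intersections: the annihilator of the augmentation ideal
-/

set_option autoImplicit false
set_option linter.unusedSectionVars false
set_option linter.style.haveILetI false

open IsLocalRing Module MvPowerSeries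

namespace Fermat.Agent.RT.NC

open Fermat.Agent.RT.ULim Fermat.Agent.RT.MvEval

/-- `T` is a quotient of a power series ring in `n` variables by `n` elements -/
def IsCI (𝒪 T : Type*) [CommRing 𝒪] [CommRing T] [Algebra 𝒪 T] : Prop :=
  ∃ (n : ℕ) (h : Fin n → MvPowerSeries (Fin n) 𝒪) (ψ : MvPowerSeries (Fin n) 𝒪 →ₐ[𝒪] T),
    Function.Surjective ψ ∧ RingHom.ker ψ = Ideal.span (Set.range h)

section normal

variable {𝒪 : Type*} [CommRing 𝒪] [IsLocalRing 𝒪] {n : ℕ}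

theorem isLocalHom_algebraMap_mvPowerSeries :
    IsLocalHom (algebraMap 𝒪 (MvPowerSeries (Fin n) 𝒪)) := by
  refine ⟨fun a ha => ?_⟩
  have := ha.map (constantCoeff (σ := Fin n) (R := 𝒪))
  have h1 : (constantCoeff (σ := Fin n) (R := 𝒪)) (algebraMap 𝒪 (MvPowerSeries (Fin n) 𝒪) a) = a :=
    constantCoeff_C a
  rwa [h1] at this

/-- translation of the variables -/
theorem exists_translate [IsNoetherianRing 𝒪] [IsAdicComplete (maximalIdeal 𝒪) 𝒪]
    (t : Fin n → 𝒪) (ht : ∀ i, t i ∈ maximalIdeal 𝒪) :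
    ∃ σ : MvPowerSeries (Fin n) 𝒪 ≃ₐ[𝒪] MvPowerSeries (Fin n) 𝒪,
      ∀ i, σ (X i) = X i - C (t i) := by
  haveI := isAdicComplete_mvPowerSeries (𝒪 := 𝒪) (r := n)
  haveI := isLocalHom_algebraMap_mvPowerSeries (𝒪 := 𝒪) (n := n)
  have hmem : ∀ t : Fin n → 𝒪, (∀ i, t i ∈ maximalIdeal 𝒪) → ∀ i,
      (X i - C (t i) : MvPowerSeries (Fin n) 𝒪) ∈ maximalIdeal (MvPowerSeries (Fin n) 𝒪) :=
    fun t ht i => sub_mem (X_mem_maximalIdeal i) (C_mem_maximalIdeal (ht i))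
  obtain ⟨σ, hσ⟩ := exists_eval (𝒪 := 𝒪) (fun i => (X i - C (t i) : MvPowerSeries (Fin n) 𝒪))
    (hmem t ht)
  obtain ⟨τ, hτ⟩ := exists_eval (𝒪 := 𝒪) (fun i => (X i - C (-t i) : MvPowerSeries (Fin n) 𝒪))
    (hmem (fun i => -t i) fun i => neg_mem (ht i))
  have hC : ∀ (f : MvPowerSeries (Fin n) 𝒪 →ₐ[𝒪] MvPowerSeries (Fin n) 𝒪) (a : 𝒪),
      f (C a) = C a := fun f a => f.commutes a
  have h1 : σ.comp τ = AlgHom.id 𝒪 _ := by
    apply hom_ext (J := maximalIdeal (MvPowerSeries (Fin n) 𝒪)) (uHaus_maximalIdeal)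
    · intro i
      rw [AlgHom.comp_apply, hτ, map_sub, hσ, hC, map_neg]
      have : (X i - C (t i) - -C (t i) : MvPowerSeries (Fin n) 𝒪) = X i := by ring
      rw [this]
      exact X_mem_maximalIdeal i
    · intro i
      rw [AlgHom.comp_apply, hτ, map_sub, hσ, hC, map_neg, AlgHom.id_apply]
      ring
  have h2 : τ.comp σ = AlgHom.id 𝒪 _ := by
    apply hom_ext (J := maximalIdeal (MvPowerSeries (Fin n) 𝒪)) (uHaus_maximalIdeal)
    · intro i
      rw [AlgHom.comp_apply, hσ, map_sub, hτ, hC, map_neg]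
      have : (X i - -C (t i) - C (t i) : MvPowerSeries (Fin n) 𝒪) = X i := by ring
      rw [this]
      exact X_mem_maximalIdeal i
    · intro i
      rw [AlgHom.comp_apply, hσ, map_sub, hτ, hC, map_neg, AlgHom.id_apply]
      ring
  exact ⟨AlgEquiv.ofAlgHom σ τ h1 h2, hσ⟩

theorem exists_normalized [IsNoetherianRing 𝒪] [IsAdicComplete (maximalIdeal 𝒪) 𝒪]
    {T : Type*} [CommRing T] [Algebra 𝒪 T] (θ : T →ₐ[𝒪] 𝒪)
    (h : Fin n → MvPowerSeries (Fin n) 𝒪) (ψ : MvPowerSeries (Fin n) 𝒪 →ₐ[𝒪] T)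
    (hψ : Function.Surjective ψ) (hker : RingHom.ker ψ = Ideal.span (Set.range h)) :
    ∃ (h' : Fin n → MvPowerSeries (Fin n) 𝒪) (ψ' : MvPowerSeries (Fin n) 𝒪 →ₐ[𝒪] T),
      Function.Surjective ψ' ∧ RingHom.ker ψ' = Ideal.span (Set.range h') ∧
        ∀ i, θ (ψ' (X i)) = 0 := by
  have hsurj : Function.Surjective ((θ.comp ψ : MvPowerSeries (Fin n) 𝒪 →ₐ[𝒪] 𝒪) :
      MvPowerSeries (Fin n) 𝒪 →+* 𝒪) := by
    intro a
    exact ⟨algebraMap 𝒪 _ a, (θ.comp ψ).commutes a⟩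
  haveI : IsLocalHom ((θ.comp ψ : MvPowerSeries (Fin n) 𝒪 →ₐ[𝒪] 𝒪) :
      MvPowerSeries (Fin n) 𝒪 →+* 𝒪) := hsurj.isLocalHom _
  have ht : ∀ i, θ (ψ (X i)) ∈ maximalIdeal 𝒪 := by
    intro i
    rw [IsLocalRing.mem_maximalIdeal]
    intro hu
    have h1 : IsUnit (X i : MvPowerSeries (Fin n) 𝒪) :=
      IsLocalHom.map_nonunit (f := ((θ.comp ψ : MvPowerSeries (Fin n) 𝒪 →ₐ[𝒪] 𝒪) :
        MvPowerSeries (Fin n) 𝒪 →+* 𝒪)) _ hu
    exact (IsLocalRing.mem_maximalIdeal _).mp (X_mem_maximalIdeal i) h1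
  obtain ⟨σ, hσ⟩ := exists_translate (fun i => θ (ψ (X i))) ht
  refine ⟨fun i => σ.symm (h i), ψ.comp (σ : MvPowerSeries (Fin n) 𝒪 →ₐ[𝒪] _), ?_, ?_, ?_⟩
  · intro b
    obtain ⟨g, rfl⟩ := hψ b
    exact ⟨σ.symm g, by simp⟩
  · ext g
    have h1 : g ∈ RingHom.ker (ψ.comp (σ : MvPowerSeries (Fin n) 𝒪 →ₐ[𝒪] _)) ↔
        σ g ∈ RingHom.ker ψ := Iff.rfl
    rw [h1, hker, Ideal.mem_span_range_iff_exists_fun, Ideal.mem_span_range_iff_exists_fun]
    constructor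
    · rintro ⟨c, hc⟩
      refine ⟨fun i => σ.symm (c i), ?_⟩
      rw [← σ.symm_apply_apply g, ← hc, map_sum]
      simp only [map_mul]
    · rintro ⟨c, hc⟩
      refine ⟨fun i => σ (c i), ?_⟩
      rw [← hc, map_sum]
      simp only [map_mul, AlgEquiv.apply_symm_apply]
  · intro i
    have h1 : (ψ.comp (σ : MvPowerSeries (Fin n) 𝒪 →ₐ[𝒪] _)) (X i) =
        ψ (X i) - algebraMap 𝒪 T (θ (ψ (X i))) := by
      rw [AlgHom.comp_apply]
      change ψ (σ (X i)) = _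
      rw [hσ, map_sub]
      congr 1
      exact ψ.commutes _
    rw [h1, map_sub, AlgHom.commutes, Algebra.algebraMap_self_apply, sub_self]

end normal

section ciStruct

variable {𝒪 : Type*} [CommRing 𝒪] [IsDomain 𝒪] [IsDiscreteValuationRing 𝒪] {n : ℕ}
  {T : Type*} [CommRing T] [Algebra 𝒪 T]

/-- the element `c` -/
noncomputable def socElt (ψ : MvPowerSeries (Fin n) 𝒪 →ₐ[𝒪] T)
    (h : Fin n → MvPowerSeries (Fin n) 𝒪) : T := ψ (quotMat h).det

theorem aug_socElt (ψ : MvPowerSeries (Fin n) 𝒪 →ₐ[𝒪] T) (θ : T →ₐ[𝒪] 𝒪)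
    (h0 : ∀ i, θ (ψ (X i)) = 0) (h : Fin n → MvPowerSeries (Fin n) 𝒪) :
    θ (socElt ψ h) = (linMat h).det := by
  rw [socElt, aug_comp ψ θ h0, constantCoeff_det_quotMat]

theorem constantCoeff_rel (ψ : MvPowerSeries (Fin n) 𝒪 →ₐ[𝒪] T) (θ : T →ₐ[𝒪] 𝒪)
    (h0 : ∀ i, θ (ψ (X i)) = 0) {g : MvPowerSeries (Fin n) 𝒪} (hg : ψ g = 0) :
    constantCoeff g = 0 := by
  rw [← aug_comp ψ θ h0, hg, map_zero]

theorem socElt_mul (ψ : MvPowerSeries (Fin n) 𝒪 →ₐ[𝒪] T) (θ : T →ₐ[𝒪] 𝒪)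
    (hψ : Function.Surjective ψ) (h0 : ∀ i, θ (ψ (X i)) = 0)
    (h : Fin n → MvPowerSeries (Fin n) 𝒪) (hh : ∀ i, ψ (h i) = 0) (x : T)
    (hx : x ∈ RingHom.ker θ) : socElt ψ h * x = 0 := by
  have h1 : ∀ j, ψ (X j) * socElt ψ h = 0 := by
    intro j
    rw [socElt, ← map_mul]
    have h2 := mul_det_mem (quotMat h) (fun i => X i) j
    rw [quotMat_mulVec h fun i => constantCoeff_rel ψ θ h0 (hh i)] at h2
    have h3 : Ideal.span (Set.range h) ≤ RingHom.ker ψ := by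
      rw [Ideal.span_le]
      rintro _ ⟨i, rfl⟩
      exact hh i
    exact h3 h2
  rw [ker_aug ψ θ hψ h0] at hx
  obtain ⟨c, rfl⟩ := (Ideal.mem_span_range_iff_exists_fun).mp hx
  rw [Finset.mul_sum]
  refine Finset.sum_eq_zero fun i _ => ?_
  have : socElt ψ h * (c i * ψ (X i)) = c i * (ψ (X i) * socElt ψ h) := by ring
  rw [this, h1, mul_zero]

/-- the maximal ideal of a local algebra finite over a local ring is nilpotent modulo the
maximal ideal of the base. -/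
theorem exists_pow_le [IsLocalRing T] [Module.Finite 𝒪 T] :
    ∃ N : ℕ, maximalIdeal T ^ N ≤ (maximalIdeal 𝒪).map (algebraMap 𝒪 T) := by
  classical
  set b := (maximalIdeal 𝒪).map (algebraMap 𝒪 T) with hb
  haveI : Module.Finite (𝒪 ⧸ maximalIdeal 𝒪) (T ⧸ b) := by
    haveI : Module.Finite 𝒪 (T ⧸ b) := inferInstance
    exact Module.Finite.of_restrictScalars_finite 𝒪 _ _
  letI : Field (𝒪 ⧸ maximalIdeal 𝒪) := Ideal.Quotient.field _
  haveI : IsArtinianRing (T ⧸ b) := IsArtinianRing.of_finite (𝒪 ⧸ maximalIdeal 𝒪) _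
  haveI : IsNoetherianRing T := IsNoetherianRing.of_finite 𝒪 T
  exact exists_maximalIdeal_pow_le_of_isArtinianRing_quotient b

/-- `c` is not divisible by the uniformizer -/
theorem socElt_notMem [IsLocalRing T] [Module.Finite 𝒪 T]
    (ψ : MvPowerSeries (Fin n) 𝒪 →ₐ[𝒪] T) (θ : T →ₐ[𝒪] 𝒪)
    (hψ : Function.Surjective ψ) (h0 : ∀ i, θ (ψ (X i)) = 0)
    (h : Fin n → MvPowerSeries (Fin n) 𝒪) (hker : RingHom.ker ψ = Ideal.span (Set.range h)) :
    socElt ψ h ∉ (maximalIdeal 𝒪).map (algebraMap 𝒪 T) := by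
  classical
  intro hmem
  have hh : ∀ i, ψ (h i) = 0 := by
    intro i
    have h1 : h i ∈ RingHom.ker ψ := by rw [hker]; exact Ideal.subset_span ⟨i, rfl⟩
    exact h1
  have hc0 : ∀ i, constantCoeff (h i) = 0 := fun i => constantCoeff_rel ψ θ h0 (hh i)
  -- reduction
  let ρ : MvPowerSeries (Fin n) 𝒪 →+* MvPowerSeries (Fin n) (ResidueField 𝒪) :=
    MvPowerSeries.map (residue 𝒪)
  have hρC : ∀ a ∈ maximalIdeal 𝒪, ρ (C a) = 0 := by
    intro a ha
    change MvPowerSeries.map (residue 𝒪) (C a) = 0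
    rw [MvPowerSeries.map_C, (IsLocalRing.residue_eq_zero_iff a).mpr ha, map_zero]
  -- elements mapping into the ideal generated by `ϖ` reduce into `(h)`
  have key : ∀ g : MvPowerSeries (Fin n) 𝒪, ψ g ∈ (maximalIdeal 𝒪).map (algebraMap 𝒪 T) →
      ρ g ∈ Ideal.span (Set.range fun i => ρ (h i)) := by
    intro g hg
    have h1 : (maximalIdeal 𝒪).map (algebraMap 𝒪 T) =
        ((maximalIdeal 𝒪).map (algebraMap 𝒪 (MvPowerSeries (Fin n) 𝒪))).map
          (ψ : MvPowerSeries (Fin n) 𝒪 →+* T) := by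
      rw [Ideal.map_map]
      congr 1
      exact (AlgHom.comp_algebraMap ψ).symm
    rw [h1, Ideal.mem_map_iff_of_surjective (ψ : MvPowerSeries (Fin n) 𝒪 →+* T) hψ] at hg
    obtain ⟨g', hg', hgg'⟩ := hg
    have h2 : g' - g ∈ RingHom.ker ψ := by
      rw [RingHom.mem_ker, map_sub, sub_eq_zero]
      exact hgg'
    have h3 : ρ g' = 0 := by
      have h4 : (maximalIdeal 𝒪).map (algebraMap 𝒪 (MvPowerSeries (Fin n) 𝒪)) ≤
          RingHom.ker ρ := by
        rw [Ideal.map_le_iff_le_comap]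
        intro a ha
        exact hρC a ha
      exact h4 hg'
    rw [hker] at h2
    have h5 := Ideal.mem_map_of_mem ρ h2
    rw [Ideal.map_span, ← Set.range_comp, map_sub, h3, zero_sub] at h5
    exact (neg_mem_iff.mp h5)
  obtain ⟨N, hN⟩ := exists_pow_le (𝒪 := 𝒪) (T := T)
  have hXm : ∀ i, ψ (X i) ∈ maximalIdeal T := by
    intro i
    haveI : IsLocalHom (ψ : MvPowerSeries (Fin n) 𝒪 →+* T) := Function.Surjective.isLocalHom _ hψ
    rw [IsLocalRing.mem_maximalIdeal]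
    intro hu
    exact (IsLocalRing.mem_maximalIdeal _).mp (X_mem_maximalIdeal i)
      (IsLocalHom.map_nonunit (f := (ψ : MvPowerSeries (Fin n) 𝒪 →+* T)) _ hu)
  have hX : ∀ j, (X j : MvPowerSeries (Fin n) (ResidueField 𝒪)) ^ (N + 1) ∈
      Ideal.span (Set.range fun i => ρ (h i)) := by
    intro j
    have h1 := key (X j ^ (N + 1)) (by
      rw [map_pow, pow_succ]
      exact Ideal.mul_mem_right _ _ (hN (Ideal.pow_mem_pow (hXm j) N)))
    have h2 : ρ (X j ^ (N + 1)) = X j ^ (N + 1) := by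
      rw [map_pow]
      congr 1
      exact MvPowerSeries.map_X _ j
    rwa [h2] at h1
  have hmat : (ρ.mapMatrix (quotMat h)).mulVec
      (fun i => (X i : MvPowerSeries (Fin n) (ResidueField 𝒪))) = fun i => ρ (h i) := by
    funext i
    conv_rhs => rw [← quotMat_mulVec h hc0]
    rw [Matrix.mulVec, Matrix.mulVec, dotProduct, dotProduct, map_sum]
    refine Finset.sum_congr rfl fun j _ => ?_
    rw [map_mul]
    congr 1
    exact (MvPowerSeries.map_X _ j).symm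
  have := det_notMem_span (fun i => ρ (h i)) (ρ.mapMatrix (quotMat h)) hmat (N + 1)
    (by omega) hX
  apply this
  rw [← RingHom.map_det]
  exact key _ hmem

end ciStruct

end Fermat.Agent.RT.NC
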