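import Fermat.Agent.RT.NC.CI

/-!
# Complete intersections: structure of the annihilator of the augmentation ideal
-/

set_option autoImplicit false
set_option linter.unusedSectionVars false
set_option linter.style.haveILetI false

open IsLocalRing Module MvPowerSeries

namespace Fermat.Agent.RT.NC

open Fermat.Agent.RT.ULim Fermat.Agent.RT.MvEval

section ann

variable {𝒪 : Type*} [CommRing 𝒪] [IsDomain 𝒪] [IsDiscreteValuationRing 𝒪]
  {T : Type*} [CommRing T] [Algebra 𝒪 T]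

theorem smul_eq_mul_of_ann (θ : T →ₐ[𝒪] 𝒪) {c t : T} (hc : ∀ x ∈ RingHom.ker θ, c * x = 0) :
    θ t • c = c * t := by
  have h1 := hc _ (sub_mem_ker θ t)
  rw [mul_sub, sub_eq_zero] at h1
  rw [h1, Algebra.smul_def, mul_comm]

theorem exists_smul_eq_of_ann [Module.Free 𝒪 T] (θ : T →ₐ[𝒪] 𝒪) {c : T}
    (hc : ∀ x ∈ RingHom.ker θ, c * x = 0) (hc0 : θ c ≠ 0)
    (hcm : c ∉ (maximalIdeal 𝒪).map (algebraMap 𝒪 T)) (t : T)
    (ht : ∀ x ∈ RingHom.ker θ, t * x = 0) : ∃ a : 𝒪, t = a • c := by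
  have h1 : θ c • t = θ t • c := by
    rw [smul_eq_mul_of_ann θ ht, smul_eq_mul_of_ann θ hc, mul_comm]
  rcases ValuationRing.dvd_total (θ c) (θ t) with ⟨a, ha⟩ | ⟨a, ha⟩
  · refine ⟨a, smul_right_injective T hc0 ?_⟩
    simp only
    rw [h1, ha, mul_smul]
  · have ht0 : θ t ≠ 0 := by
      intro h; rw [h, zero_mul] at ha; exact hc0 ha
    have h2 : c = a • t := by
      apply smul_right_injective T ht0
      simp only
      rw [← h1, ha, mul_smul]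
    by_cases hu : IsUnit a
    · obtain ⟨u, rfl⟩ := hu
      refine ⟨((u⁻¹ : 𝒪ˣ) : 𝒪), ?_⟩
      rw [h2, smul_smul, Units.inv_mul, one_smul]
    · exfalso
      apply hcm
      rw [h2, Algebra.smul_def]
      exact Ideal.mul_mem_right _ _ (Ideal.mem_map_of_mem _ ((IsLocalRing.mem_maximalIdeal _).mpr hu))

end ann

section main

variable {𝒪 : Type*} [CommRing 𝒪] [IsDomain 𝒪] [IsDiscreteValuationRing 𝒪]
  {T : Type*} [CommRing T] [Algebra 𝒪 T]

theorem nontrivial_of_aug (θ : T →ₐ[𝒪] 𝒪) : Nontrivial T :=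
  (θ : T →+* 𝒪).domain_nontrivial

/-- length of the cotangent space of a quotient of a power series ring by `n` elements -/
theorem length_cotangent_of_ker {n : ℕ} (θ : T →ₐ[𝒪] 𝒪)
    (ψ : MvPowerSeries (Fin n) 𝒪 →ₐ[𝒪] T) (hψ : Function.Surjective ψ)
    (h0 : ∀ i, θ (ψ (X i)) = 0) (h : Fin n → MvPowerSeries (Fin n) 𝒪)
    (hker : RingHom.ker ψ = Ideal.span (Set.range h)) (a : 𝒪) (ha : a ≠ 0)
    (hax : ∀ x ∈ RingHom.ker θ, a • x ∈ RingHom.ker θ ^ 2) :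
    (linMat h).det ≠ 0 ∧
      Module.length 𝒪 (RingHom.ker θ).Cotangent = Ring.ord 𝒪 (linMat h).det := by
  have hh : ∀ i, ψ (h i) = 0 := by
    intro i
    have h1 : h i ∈ RingHom.ker ψ := by rw [hker]; exact Ideal.subset_span ⟨i, rfl⟩
    exact h1
  have hc0 : ∀ i, constantCoeff (h i) = 0 := fun i => constantCoeff_rel ψ θ h0 (hh i)
  have hrel : ∀ u : Fin n → 𝒪, ∑ i, u i • ψ (X i) ∈ RingHom.ker θ ^ 2 ↔
      ∃ v, Matrix.vecMul v (linMat h) = u := by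
    intro u
    rw [sum_mem_sq_iff ψ θ hψ h0, hker, lin_mem_span h hc0]
  have hdet : (linMat h).det ≠ 0 :=
    det_ne_zero_of_torsion θ (fun i => ψ (X i)) a ha (fun i => hax _ (h0 i)) (linMat h)
      fun u hu => (hrel u).mp hu
  refine ⟨hdet, ?_⟩
  exact length_cotangent_eq θ (fun i => ψ (X i)) h0 (ker_aug ψ θ hψ h0).le (linMat h) hdet hrel

/-- **Tate–Wiles**: structure of the annihilator of the augmentation ideal of a complete
intersection. -/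
theorem IsCI.exists_generator [IsAdicComplete (maximalIdeal 𝒪) 𝒪] [Module.Finite 𝒪 T]
    [Module.Free 𝒪 T] (hCI : IsCI 𝒪 T) (θ : T →ₐ[𝒪] 𝒪) (a : 𝒪) (ha : a ≠ 0)
    (hax : ∀ x ∈ RingHom.ker θ, a • x ∈ RingHom.ker θ ^ 2) :
    ∃ c : T, (∀ x ∈ RingHom.ker θ, c * x = 0) ∧ θ c ≠ 0 ∧
      c ∉ (maximalIdeal 𝒪).map (algebraMap 𝒪 T) ∧
      (∀ t : T, (∀ x ∈ RingHom.ker θ, t * x = 0) → ∃ b : 𝒪, t = b • c) ∧
      Module.length 𝒪 (RingHom.ker θ).Cotangent = Ring.ord 𝒪 (θ c) := by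
  obtain ⟨n, h1, ψ1, hψ1, hker1⟩ := hCI
  obtain ⟨h, ψ, hψ, hker, h0⟩ := exists_normalized θ h1 ψ1 hψ1 hker1
  haveI : Nontrivial T := nontrivial_of_aug θ
  haveI : IsLocalRing T :=
    IsLocalRing.of_surjective' (ψ : MvPowerSeries (Fin n) 𝒪 →+* T) hψ
  have hh : ∀ i, ψ (h i) = 0 := by
    intro i
    have h1 : h i ∈ RingHom.ker ψ := by rw [hker]; exact Ideal.subset_span ⟨i, rfl⟩
    exact h1
  obtain ⟨hdet, hlen⟩ := length_cotangent_of_ker θ ψ hψ h0 h hker a ha hax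
  have hc : ∀ x ∈ RingHom.ker θ, socElt ψ h * x = 0 := socElt_mul ψ θ hψ h0 h hh
  have hc0 : θ (socElt ψ h) ≠ 0 := by rw [aug_socElt ψ θ h0]; exact hdet
  have hcm := socElt_notMem ψ θ hψ h0 h hker
  refine ⟨socElt ψ h, hc, hc0, hcm, fun t ht => exists_smul_eq_of_ann θ hc hc0 hcm t ht, ?_⟩
  rw [hlen, aug_socElt ψ θ h0]

/-- version with the nonvanishing of the congruence ideal as hypothesis -/
theorem IsCI.exists_generator' [IsAdicComplete (maximalIdeal 𝒪) 𝒪] [Module.Finite 𝒪 T]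
    [Module.Free 𝒪 T] (hCI : IsCI 𝒪 T) (θ : T →ₐ[𝒪] 𝒪) (t : T)
    (ht : ∀ x ∈ RingHom.ker θ, t * x = 0) (ht0 : θ t ≠ 0) :
    ∃ c : T, (∀ x ∈ RingHom.ker θ, c * x = 0) ∧ θ c ≠ 0 ∧
      c ∉ (maximalIdeal 𝒪).map (algebraMap 𝒪 T) ∧
      (∀ t : T, (∀ x ∈ RingHom.ker θ, t * x = 0) → ∃ b : 𝒪, t = b • c) ∧
      Module.length 𝒪 (RingHom.ker θ).Cotangent = Ring.ord 𝒪 (θ c) :=
  hCI.exists_generator θ (θ t) ht0 fun _ hx => smul_mem_sq θ ht hx

end main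

end Fermat.Agent.RT.NC
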