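import Fermat.Agent.RT.NC.DetLength
import Mathlib.RingTheory.Ideal.Cotangent
import Mathlib.RingTheory.DiscreteValuationRing.Basic
import Mathlib.LinearAlgebra.Matrix.ToLinearEquiv
import Mathlib.LinearAlgebra.Matrix.Determinant.Basic

/-!
# The cotangent space of an augmentation
-/

set_option autoImplicit false
set_option linter.unusedSectionVars false
set_option linter.style.haveILetI false

open IsLocalRing Module

namespace Fermat.Agent.RT.NC

section general

variable {𝒪 B : Type*} [CommRing 𝒪] [CommRing B] [Algebra 𝒪 B] (θ : B →ₐ[𝒪] 𝒪) {n : ℕ}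

theorem sub_mem_ker (b : B) : b - algebraMap 𝒪 B (θ b) ∈ RingHom.ker θ := by
  rw [RingHom.mem_ker, map_sub, AlgHom.commutes, Algebra.algebraMap_self_apply, sub_self]

/-- the map `𝒪 ^ n → Φ` -/
noncomputable def cotMap (x : Fin n → B) (hx : ∀ i, θ (x i) = 0) :
    (Fin n → 𝒪) →ₗ[𝒪] (RingHom.ker θ).Cotangent :=
  ((RingHom.ker θ).toCotangent.restrictScalars 𝒪) ∘ₗ
    (Fintype.linearCombination 𝒪 fun i => (⟨x i, hx i⟩ : RingHom.ker θ))

theorem cotMap_apply (x : Fin n → B) (hx : ∀ i, θ (x i) = 0) (u : Fin n → 𝒪) :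
    cotMap θ x hx u = (RingHom.ker θ).toCotangent (∑ i, u i • (⟨x i, hx i⟩ : RingHom.ker θ)) := by
  rw [cotMap, LinearMap.comp_apply, Fintype.linearCombination_apply]
  rfl

theorem cotMap_eq_zero (x : Fin n → B) (hx : ∀ i, θ (x i) = 0) (u : Fin n → 𝒪) :
    cotMap θ x hx u = 0 ↔ ∑ i, u i • x i ∈ RingHom.ker θ ^ 2 := by
  rw [cotMap_apply, Ideal.toCotangent_eq_zero]
  have : ((∑ i, u i • (⟨x i, hx i⟩ : RingHom.ker θ) : RingHom.ker θ) : B) = ∑ i, u i • x i := by
    rw [AddSubmonoidClass.coe_finsetSum]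
    rfl
  rw [this]

theorem cotMap_surjective (x : Fin n → B) (hx : ∀ i, θ (x i) = 0)
    (hspan : RingHom.ker θ ≤ Ideal.span (Set.range x)) : Function.Surjective (cotMap θ x hx) := by
  intro y
  obtain ⟨⟨b, hb⟩, rfl⟩ := (RingHom.ker θ).toCotangent_surjective y
  obtain ⟨c, hc⟩ := (Ideal.mem_span_range_iff_exists_fun).mp (hspan hb)
  refine ⟨fun i => θ (c i), ?_⟩
  rw [cotMap_apply, Ideal.toCotangent_eq]
  have h1 : ((∑ i, θ (c i) • (⟨x i, hx i⟩ : RingHom.ker θ) : RingHom.ker θ) : B) =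
      ∑ i, θ (c i) • x i := by
    rw [AddSubmonoidClass.coe_finsetSum]
    rfl
  rw [h1]
  change ∑ i, θ (c i) • x i - b ∈ _
  rw [← hc, ← Finset.sum_sub_distrib]
  refine Ideal.sum_mem _ fun i _ => ?_
  have h2 : θ (c i) • x i - c i * x i = -((c i - algebraMap 𝒪 B (θ (c i))) * x i) := by
    rw [Algebra.smul_def]; ring
  rw [h2, sq]
  exact neg_mem (Ideal.mul_mem_mul (sub_mem_ker θ _) (hx i))

/-- if `t` annihilates `ker θ` then `θ t` annihilates the cotangent space -/
theorem smul_mem_sq {t : B} (ht : ∀ x ∈ RingHom.ker θ, t * x = 0) {x : B}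
    (hx : x ∈ RingHom.ker θ) : θ t • x ∈ RingHom.ker θ ^ 2 := by
  have h1 : θ t • x = -((t - algebraMap 𝒪 B (θ t)) * x) := by
    rw [Algebra.smul_def, sub_mul, ht x hx]; ring
  rw [h1, sq]
  exact neg_mem (Ideal.mul_mem_mul (sub_mem_ker θ _) hx)

end general

section dvr

variable {𝒪 B : Type*} [CommRing 𝒪] [IsDomain 𝒪] [IsPrincipalIdealRing 𝒪] [CommRing B]
  [Algebra 𝒪 B] (θ : B →ₐ[𝒪] 𝒪) {n : ℕ}

theorem length_quotient_range_vecMul (U : Matrix (Fin n) (Fin n) 𝒪) (hU : U.det ≠ 0) :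
    Module.length 𝒪 ((Fin n → 𝒪) ⧸ LinearMap.range (Matrix.vecMulLinear U)) =
      Ring.ord 𝒪 U.det := by
  have h1 : Matrix.vecMulLinear U = Matrix.toLin' U.transpose := by
    ext1 i
    ext j
    simp [Matrix.toLin'_apply]
  have h2 : LinearMap.det (Matrix.vecMulLinear U) = U.det := by
    rw [h1, LinearMap.det_toLin', Matrix.det_transpose]
  rw [length_quotient_range (Pi.basisFun 𝒪 (Fin n)) (Matrix.vecMulLinear U) (by rwa [h2]), h2]

/-- length of the cotangent space from a relation matrix -/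
theorem length_cotangent_eq (x : Fin n → B) (hx : ∀ i, θ (x i) = 0)
    (hspan : RingHom.ker θ ≤ Ideal.span (Set.range x)) (U : Matrix (Fin n) (Fin n) 𝒪)
    (hU : U.det ≠ 0)
    (hker : ∀ u : Fin n → 𝒪, ∑ i, u i • x i ∈ RingHom.ker θ ^ 2 ↔ ∃ v, Matrix.vecMul v U = u) :
    Module.length 𝒪 (RingHom.ker θ).Cotangent = Ring.ord 𝒪 U.det := by
  rw [← length_quotient_range_vecMul U hU]
  have h1 : LinearMap.ker (cotMap θ x hx) = LinearMap.range (Matrix.vecMulLinear U) := by
    ext u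
    rw [LinearMap.mem_ker, cotMap_eq_zero, hker, LinearMap.mem_range]
    rfl
  rw [← h1]
  exact ((cotMap θ x hx).quotKerEquivOfSurjective (cotMap_surjective θ x hx hspan)).symm.length_eq

/-- existence of a relation matrix when the cotangent space is killed by a nonzero element -/
theorem exists_relation_matrix (x : Fin n → B) (hx : ∀ i, θ (x i) = 0) (a : 𝒪) (ha : a ≠ 0)
    (hax : ∀ i, a • x i ∈ RingHom.ker θ ^ 2) :
    ∃ U : Matrix (Fin n) (Fin n) 𝒪, U.det ≠ 0 ∧
      ∀ u : Fin n → 𝒪, ∑ i, u i • x i ∈ RingHom.ker θ ^ 2 ↔ ∃ v, Matrix.vecMul v U = u := by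
  classical
  let L : Submodule 𝒪 (Fin n → 𝒪) := LinearMap.ker (cotMap θ x hx)
  have hL : ∀ u, u ∈ L ↔ ∑ i, u i • x i ∈ RingHom.ker θ ^ 2 := by
    intro u
    rw [LinearMap.mem_ker, cotMap_eq_zero]
  have haL : ∀ u, a • u ∈ L := by
    intro u
    rw [hL]
    refine Ideal.sum_mem _ fun i _ => ?_
    rw [Pi.smul_apply, smul_eq_mul, mul_comm, mul_smul]
    exact Submodule.smul_of_tower_mem _ _ (hax i)
  have hfr : Module.finrank 𝒪 L = n := by
    apply le_antisymm
    · have := Submodule.finrank_le L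
      rwa [Module.finrank_fin_fun] at this
    · let m : (Fin n → 𝒪) →ₗ[𝒪] L :=
        (LinearMap.lsmul 𝒪 (Fin n → 𝒪) a).codRestrict L (fun u => haL u)
      have hm : Function.Injective m := by
        intro u v huv
        have h1 : a • u = a • v := congrArg Subtype.val huv
        exact smul_right_injective _ ha h1
      have := LinearMap.finrank_le_finrank_of_injective hm
      rwa [Module.finrank_fin_fun] at this
  let b : Basis (Fin n) 𝒪 L := Module.finBasisOfFinrankEq 𝒪 L hfr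
  let U : Matrix (Fin n) (Fin n) 𝒪 := fun i => (b i : Fin n → 𝒪)
  have hUv : ∀ v : Fin n → 𝒪, Matrix.vecMul v U = ((∑ i, v i • b i : L) : Fin n → 𝒪) := by
    intro v
    rw [AddSubmonoidClass.coe_finsetSum]
    funext j
    rw [Matrix.vecMul, dotProduct, Finset.sum_apply]
    rfl
  have hker : ∀ u : Fin n → 𝒪, ∑ i, u i • x i ∈ RingHom.ker θ ^ 2 ↔
      ∃ v, Matrix.vecMul v U = u := by
    intro u
    rw [← hL]
    constructor
    · intro hu
      refine ⟨b.repr ⟨u, hu⟩, ?_⟩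
      rw [hUv, b.sum_repr]
    · rintro ⟨v, rfl⟩
      rw [hUv]
      exact Subtype.coe_prop _
  refine ⟨U, ?_, hker⟩
  -- the determinant is nonzero
  have h1 : ∀ i, ∃ v : Fin n → 𝒪, Matrix.vecMul v U = a • Pi.single i 1 := by
    intro i
    rw [← hker, ← hL]
    exact haL _
  choose V hV using h1
  have h2 : (Matrix.of V) * U = a • (1 : Matrix (Fin n) (Fin n) 𝒪) := by
    ext i j
    have := congrFun (hV i) j
    rw [Matrix.mul_apply]
    rw [Matrix.vecMul, dotProduct] at this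
    simp only [Matrix.of_apply, this, Pi.smul_apply, Matrix.smul_apply, Matrix.one_apply,
      Pi.single_apply, eq_comm]
  intro hU
  have h3 := congrArg Matrix.det h2
  rw [Matrix.det_mul, hU, mul_zero, Matrix.det_smul, Matrix.det_one, mul_one] at h3
  exact pow_ne_zero _ ha h3.symm

/-- the determinant of a relation matrix does not vanish if the cotangent space is torsion -/
theorem det_ne_zero_of_torsion (x : Fin n → B) (a : 𝒪) (ha : a ≠ 0)
    (hax : ∀ i, a • x i ∈ RingHom.ker θ ^ 2) (U : Matrix (Fin n) (Fin n) 𝒪)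
    (hker : ∀ u : Fin n → 𝒪, ∑ i, u i • x i ∈ RingHom.ker θ ^ 2 → ∃ v, Matrix.vecMul v U = u) :
    U.det ≠ 0 := by
  classical
  have h1 : ∀ i, ∃ v : Fin n → 𝒪, Matrix.vecMul v U = a • Pi.single i 1 := by
    intro i
    apply hker
    have h2 : ∑ j, (a • Pi.single i (1 : 𝒪) : Fin n → 𝒪) j • x j = a • x i := by
      rw [Finset.sum_eq_single i]
      · simp
      · intro j _ hj
        simp [hj]
      · intro h; exact absurd (Finset.mem_univ _) h
    rw [h2]
    exact hax i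
  choose V hV using h1
  have h2 : (Matrix.of V) * U = a • (1 : Matrix (Fin n) (Fin n) 𝒪) := by
    ext i j
    have := congrFun (hV i) j
    rw [Matrix.mul_apply]
    rw [Matrix.vecMul, dotProduct] at this
    simp only [Matrix.of_apply, this, Pi.smul_apply, Matrix.smul_apply, Matrix.one_apply,
      Pi.single_apply, eq_comm]
  intro hU
  have h3 := congrArg Matrix.det h2
  rw [Matrix.det_mul, hU, mul_zero, Matrix.det_smul, Matrix.det_one, mul_one] at h3
  exact pow_ne_zero _ ha h3.symm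

end dvr

section finiteLength

variable {𝒪 M : Type*} [CommRing 𝒪] [IsDomain 𝒪] [IsDiscreteValuationRing 𝒪] [AddCommGroup M]
  [Module 𝒪 M]

/-- a module of finite length over a DVR is killed by a nonzero element -/
theorem exists_smul_eq_zero_of_length_ne_top (h : Module.length 𝒪 M ≠ ⊤) :
    ∃ a : 𝒪, a ≠ 0 ∧ ∀ m : M, a • m = 0 := by
  classical
  obtain ⟨ϖ, hϖ⟩ := IsDiscreteValuationRing.exists_irreducible 𝒪
  have hfl : IsFiniteLength 𝒪 M := Module.length_ne_top_iff.mp h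
  obtain ⟨hN, hA⟩ := isFiniteLength_iff_isNoetherian_isArtinian.mp hfl
  obtain ⟨N, hNN⟩ := IsArtinian.monotone_stabilizes (R := 𝒪) (M := M)
    ⟨fun j => OrderDual.toDual ((Ideal.span {ϖ}) ^ j • (⊤ : Submodule 𝒪 M)),
      fun a b hab => Submodule.smul_mono_left (Ideal.pow_le_pow_right hab)⟩
  have h1 : (Ideal.span {ϖ}) ^ N • (⊤ : Submodule 𝒪 M) =
      (Ideal.span {ϖ}) ^ (N + 1) • (⊤ : Submodule 𝒪 M) := hNN (N + 1) (by omega)
  have h2 : (Ideal.span {ϖ}) ^ N • (⊤ : Submodule 𝒪 M) = ⊥ := by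
    apply Submodule.eq_bot_of_le_smul_of_le_jacobson_bot (Ideal.span {ϖ})
    · exact IsNoetherian.noetherian _
    · rw [← mul_smul, ← pow_succ', ← h1]
    · rw [IsLocalRing.jacobson_eq_maximalIdeal ⊥ bot_ne_top, Ideal.span_singleton_le_iff_mem]
      exact (IsLocalRing.mem_maximalIdeal _).mpr hϖ.not_isUnit
  refine ⟨ϖ ^ N, pow_ne_zero _ hϖ.ne_zero, fun m => ?_⟩
  have h3 : ϖ ^ N • m ∈ (Ideal.span {ϖ}) ^ N • (⊤ : Submodule 𝒪 M) :=
    Submodule.smul_mem_smul (Ideal.pow_mem_pow (Ideal.mem_span_singleton_self _) _) trivial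
  rw [h2] at h3
  exact (Submodule.mem_bot 𝒪).mp h3

end finiteLength

end Fermat.Agent.RT.NC
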