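import Fermat.Agent.RT.NC.CIMain

/-!
# The complete intersection cover
-/

set_option autoImplicit false
set_option linter.unusedSectionVars false
set_option linter.style.haveILetI false

open IsLocalRing Module

namespace Fermat.Agent.RT.NC

open Fermat.Agent.RT.ULim Fermat.Agent.RT.MvEval

section mat

variable {𝒪 : Type*} [CommRing 𝒪] {n : ℕ}

open MvPolynomial

/-- the matrix of the covering complete intersection -/
noncomputable def covMat (U : Matrix (Fin n) (Fin n) 𝒪) (w : Fin n → Fin n → Fin n → 𝒪)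
    (e : Matrix (Fin n) (Fin n) 𝒪) : Matrix (Fin n) (Fin n) (MvPolynomial (Fin n) 𝒪) :=
  fun i j => C (U i j) - ∑ k, C (w i j k) * X k + (if i = j then X i ^ 2 else 0) -
    C (e i j) * X i

/-- the relations of the covering complete intersection -/
noncomputable def covRel (U : Matrix (Fin n) (Fin n) 𝒪) (w : Fin n → Fin n → Fin n → 𝒪)
    (e : Matrix (Fin n) (Fin n) 𝒪) : Fin n → MvPolynomial (Fin n) 𝒪 :=
  (covMat U w e).mulVec X

theorem covRel_apply (U : Matrix (Fin n) (Fin n) 𝒪) (w : Fin n → Fin n → Fin n → 𝒪)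
    (e : Matrix (Fin n) (Fin n) 𝒪) (i : Fin n) :
    covRel U w e i = (∑ j, C (U i j) * X j - ∑ j, ∑ k, C (w i j k) * (X k * X j)) + X i ^ 3 -
      ∑ j, C (e i j) * (X i * X j) := by
  rw [covRel, Matrix.mulVec, dotProduct]
  simp only [covMat, sub_mul, add_mul, Finset.sum_sub_distrib, Finset.sum_add_distrib, ite_mul,
    zero_mul, Finset.sum_mul]
  rw [Finset.sum_ite_eq Finset.univ i, if_pos (Finset.mem_univ _)]
  have h1 : (X i : MvPolynomial (Fin n) 𝒪) ^ 2 * X i = X i ^ 3 := by ring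
  rw [h1]
  simp only [mul_assoc]

theorem X_mem_Fl (i : Fin n) : (X i : MvPolynomial (Fin n) 𝒪) ∈ Fl 𝒪 n (1 + 1) := by
  have := monomial_mem_Fl (k := 𝒪) (Finsupp.single i 1) 1
  rwa [Finsupp.degree_single] at this

theorem C_mul_mem_Fl {d : ℕ} (a : 𝒪) {p : MvPolynomial (Fin n) 𝒪} (hp : p ∈ Fl 𝒪 n d) :
    C a * p ∈ Fl 𝒪 n d := by
  rw [C_mul']; exact Submodule.smul_mem _ _ hp

theorem covRel_sub_mem (U : Matrix (Fin n) (Fin n) 𝒪) (w : Fin n → Fin n → Fin n → 𝒪)
    (e : Matrix (Fin n) (Fin n) 𝒪) (i : Fin n) :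
    covRel U w e i - X i ^ 3 ∈ Fl 𝒪 n 3 := by
  rw [covRel_apply]
  have h1 : (∑ j, C (U i j) * X j - ∑ j, ∑ k, C (w i j k) * (X k * X j)) + X i ^ 3 -
      ∑ j, C (e i j) * (X i * X j) - X i ^ 3 =
      (∑ j, C (U i j) * X j - ∑ j, ∑ k, C (w i j k) * (X k * X j)) -
      ∑ j, C (e i j) * (X i * X j) := by ring
  rw [h1]
  have hXX : ∀ k j : Fin n, (X k * X j : MvPolynomial (Fin n) 𝒪) ∈ Fl 𝒪 n 3 := fun k j =>
    mul_mem_Fl (a := 1) (b := 2) (X_mem_Fl k) (X_mem_Fl j)
  refine sub_mem (sub_mem ?_ ?_) ?_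
  · exact Submodule.sum_mem _ fun j _ => C_mul_mem_Fl _ (Fl_mono (by norm_num) (X_mem_Fl j))
  · exact Submodule.sum_mem _ fun j _ => Submodule.sum_mem _ fun k _ => C_mul_mem_Fl _ (hXX k j)
  · exact Submodule.sum_mem _ fun j _ => C_mul_mem_Fl _ (hXX i j)

/-- the linear part of the relations -/
theorem lin_covRel (U : Matrix (Fin n) (Fin n) 𝒪) (w : Fin n → Fin n → Fin n → 𝒪)
    (e : Matrix (Fin n) (Fin n) 𝒪) :
    linMat (fun i => (covRel U w e i : MvPowerSeries (Fin n) 𝒪)) = U := by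
  classical
  ext i j
  rw [linMat, lin, MvPolynomial.coeff_coe, covRel_apply]
  have hquad : ∀ k l : Fin n, coeff (Finsupp.single j 1)
      (X k * X l : MvPolynomial (Fin n) 𝒪) = 0 := by
    intro k l
    rw [coeff_mul_X']
    split_ifs with h
    · rw [coeff_X, if_neg]
      intro h1
      have h2 := congrArg Finsupp.degree h1
      have h3 : Finsupp.single l 1 ≤ Finsupp.single j 1 := by
        rw [Finsupp.single_le_iff]
        rw [Finsupp.mem_support_iff] at h
        omega
      have h4 : (Finsupp.single j 1 - Finsupp.single l 1 + Finsupp.single l 1 : Fin n →₀ ℕ) =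
          Finsupp.single j 1 := tsub_add_cancel_of_le h3
      rw [← h1] at h4
      have h5 := congrArg Finsupp.degree h4
      simp at h5
    · rfl
  have hcube : coeff (Finsupp.single j 1) (X i ^ 3 : MvPolynomial (Fin n) 𝒪) = 0 := by
    rw [coeff_X_pow, if_neg]
    intro h
    have := congrArg Finsupp.degree h
    simp at this
  simp only [MvPolynomial.coeff_sub, coeff_add, coeff_sum, coeff_C_mul, hquad, hcube, mul_zero,
    Finset.sum_const_zero, sub_zero, add_zero]
  rw [Finset.sum_eq_single j]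
  · rw [coeff_X, if_pos rfl, mul_one]
  · intro k _ hk
    rw [coeff_X, if_neg, mul_zero]
    intro h
    exact hk ((Finsupp.single_left_inj one_ne_zero).mp h)
  · intro h; exact absurd (Finset.mem_univ _) h

theorem constantCoeff_det_covMat (U : Matrix (Fin n) (Fin n) 𝒪) (w : Fin n → Fin n → Fin n → 𝒪)
    (e : Matrix (Fin n) (Fin n) 𝒪) :
    MvPowerSeries.constantCoeff ((covMat U w e).det : MvPowerSeries (Fin n) 𝒪) = U.det := by
  classical
  rw [← MvPolynomial.coeToMvPowerSeries.ringHom_apply (σ := Fin n), ← RingHom.comp_apply,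
    RingHom.map_det]
  congr 1
  ext i j
  have h1 : ∀ p : MvPolynomial (Fin n) 𝒪, ((MvPowerSeries.constantCoeff).comp
      MvPolynomial.coeToMvPowerSeries.ringHom) p = MvPolynomial.constantCoeff p := by
    intro p
    rw [RingHom.comp_apply, MvPolynomial.coeToMvPowerSeries.ringHom_apply]
    rw [← MvPowerSeries.coeff_zero_eq_constantCoeff_apply, MvPolynomial.coeff_coe]
    rfl
  rw [RingHom.mapMatrix_apply, Matrix.map_apply, h1, covMat]
  simp only [map_sub, map_add, map_sum, map_mul, constantCoeff_C, constantCoeff_X, mul_zero,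
    Finset.sum_const_zero, sub_zero]
  split_ifs <;> simp

end mat

end Fermat.Agent.RT.NC
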