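import Fermat.Agent.RT.NC.Cover
import Mathlib.RingTheory.DiscreteValuationRing.TFAE
import Mathlib.LinearAlgebra.Matrix.NonsingularInverse

/-!
# The Wiles–Lenstra numerical criterion
-/

set_option autoImplicit false
set_option linter.unusedSectionVars false
set_option linter.style.haveILetI false

open IsLocalRing Module MvPowerSeries

namespace Fermat.Agent.RT.NC

open Fermat.Agent.RT.ULim Fermat.Agent.RT.MvEval

section quad

variable {𝒪 T : Type*} [CommRing 𝒪] [CommRing T] [Algebra 𝒪 T] {n : ℕ}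

/-- elements of the square of the augmentation ideal are quadratic expressions in module
generators. -/
theorem exists_quad (p : Ideal T) (x : Fin n → T)
    (hx : ∀ t ∈ p, ∃ u : Fin n → 𝒪, ∑ i, u i • x i = t) {t : T} (ht : t ∈ p ^ 2) :
    ∃ w : Fin n → Fin n → 𝒪, ∑ j, ∑ k, w j k • (x k * x j) = t := by
  rw [sq] at ht
  induction ht using Submodule.mul_induction_on' with
  | mem_mul_mem a ha b hb =>
    obtain ⟨u, rfl⟩ := hx a ha
    obtain ⟨v, rfl⟩ := hx b hb
    refine ⟨fun j k => u k * v j, ?_⟩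
    rw [Finset.sum_mul_sum, Finset.sum_comm]
    refine Finset.sum_congr rfl fun j _ => Finset.sum_congr rfl fun k _ => ?_
    rw [smul_mul_smul_comm]
  | add a _ b _ ha hb =>
    obtain ⟨w, hw⟩ := ha
    obtain ⟨w', hw'⟩ := hb
    refine ⟨fun j k => w j k + w' j k, ?_⟩
    rw [← hw, ← hw', ← Finset.sum_add_distrib]
    refine Finset.sum_congr rfl fun j _ => ?_
    rw [← Finset.sum_add_distrib]
    refine Finset.sum_congr rfl fun k _ => ?_
    rw [add_smul]

end quad

section setup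

variable {𝒪 : Type*} [CommRing 𝒪] [IsDomain 𝒪] [IsDiscreteValuationRing 𝒪]
  {T : Type*} [CommRing T] [Algebra 𝒪 T]

theorem map_maximalIdeal_eq {ϖ : 𝒪} (hϖ : Irreducible ϖ) (A : Type*) [CommRing A]
    (f : 𝒪 →+* A) : (maximalIdeal 𝒪).map f = Ideal.span {f ϖ} := by
  rw [hϖ.maximalIdeal_eq, Ideal.map_span, Set.image_singleton]

/-- module generators of the augmentation ideal -/
theorem exists_generators [Module.Finite 𝒪 T] (θ : T →ₐ[𝒪] 𝒪) :
    ∃ (n : ℕ) (x : Fin n → T), (∀ i, θ (x i) = 0) ∧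
      ∀ t ∈ RingHom.ker θ, ∃ u : Fin n → 𝒪, ∑ i, u i • x i = t := by
  haveI : IsNoetherian 𝒪 T := inferInstance
  obtain ⟨n, s, hs⟩ := Submodule.fg_iff_exists_fin_generating_family.mp
    (IsNoetherian.noetherian ((RingHom.ker θ).restrictScalars 𝒪))
  refine ⟨n, s, ?_, ?_⟩
  · intro i
    have h1 : s i ∈ (RingHom.ker θ).restrictScalars 𝒪 := by
      rw [← hs]; exact Submodule.subset_span ⟨i, rfl⟩
    exact h1
  · intro t ht
    have h1 : t ∈ (RingHom.ker θ).restrictScalars 𝒪 := ht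
    rw [← hs] at h1
    exact (Submodule.mem_span_range_iff_exists_fun 𝒪).mp h1

end setup

section cover

variable {𝒪 : Type*} [CommRing 𝒪] [IsDomain 𝒪] [IsDiscreteValuationRing 𝒪]
  {T : Type*} [CommRing T] [Algebra 𝒪 T] [IsLocalRing T] [Module.Finite 𝒪 T] [Module.Free 𝒪 T]

/-- Under the numerical hypothesis, `T` is a complete intersection with a given presentation. -/
theorem ker_eq_of_numerical (θ : T →ₐ[𝒪] 𝒪) {n : ℕ}
    (ψ : MvPowerSeries (Fin n) 𝒪 →ₐ[𝒪] T)
    (h0 : ∀ i, θ (ψ (X i)) = 0)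
    (hx : ∀ t ∈ RingHom.ker θ, ∃ u : Fin n → 𝒪, ∑ i, u i • ψ (X i) = t)
    (U : Matrix (Fin n) (Fin n) 𝒪) (hU : U.det ≠ 0)
    (hker : ∀ u : Fin n → 𝒪, ∑ i, u i • ψ (X i) ∈ RingHom.ker θ ^ 2 ↔
      ∃ v, Matrix.vecMul v U = u)
    (η : 𝒪) (hη0 : η ≠ 0) (hη : ∀ t : T, (∀ x ∈ RingHom.ker θ, t * x = 0) → η ∣ θ t)
    (hlen : Module.length 𝒪 (RingHom.ker θ).Cotangent ≤ Ring.ord 𝒪 η) :
    ∃ h : Fin n → MvPowerSeries (Fin n) 𝒪, RingHom.ker ψ = Ideal.span (Set.range h) ∧
      (∀ i, constantCoeff (h i) = 0) ∧ linMat h = U ∧ Ring.ord 𝒪 η ≤ Ring.ord 𝒪 U.det := by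
  classical
  obtain ⟨ϖ, hϖ⟩ := IsDiscreteValuationRing.exists_irreducible 𝒪
  have hψs : Function.Surjective ψ := by
    intro t
    obtain ⟨u, hu⟩ := hx _ (sub_mem_ker θ t)
    refine ⟨C (θ t) + ∑ i, C (u i) * X i, ?_⟩
    have h1 : ∀ a : 𝒪, ψ (C a) = algebraMap 𝒪 T a := fun a => ψ.commutes a
    rw [map_add, map_sum, h1]
    simp only [map_mul, h1, ← Algebra.smul_def]
    rw [hu]; ring
  have hspan : RingHom.ker θ = Ideal.span (Set.range fun i => ψ (X i)) := ker_aug ψ θ hψs h0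
  -- quadratic data
  have hsq : ∀ i, ∃ u : Fin n → 𝒪, ∑ j, u j • ψ (X j) = ψ (X i) * ψ (X i) := by
    intro i
    apply hx
    exact Ideal.mul_mem_left _ _ (h0 i)
  choose e he using hsq
  have hquad : ∀ i, ∃ w : Fin n → Fin n → 𝒪, ∑ j, ∑ k, w j k • (ψ (X k) * ψ (X j)) =
      ∑ j, U i j • ψ (X j) := by
    intro i
    apply exists_quad (RingHom.ker θ) (fun i => ψ (X i)) hx
    rw [hker]
    refine ⟨Pi.single i 1, ?_⟩
    rw [Matrix.single_one_vecMul]
    rfl
  choose w hw using hquad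
  set H := covRel U w (Matrix.of e) with hH
  set a := covMat U w (Matrix.of e) with ha
  -- the relations hold in `T`
  have hψC : ∀ c : 𝒪, ψ ((MvPolynomial.C c : MvPolynomial (Fin n) 𝒪) :
      MvPowerSeries (Fin n) 𝒪) = algebraMap 𝒪 T c := by
    intro c
    rw [MvPolynomial.coe_C]
    exact ψ.commutes c
  let ev : MvPolynomial (Fin n) 𝒪 →+* T := (ψ : MvPowerSeries (Fin n) 𝒪 →+* T).comp
    MvPolynomial.coeToMvPowerSeries.ringHom
  have hev : ∀ p : MvPolynomial (Fin n) 𝒪, ψ (p : MvPowerSeries (Fin n) 𝒪) = ev p := fun p => rfl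
  have hevC : ∀ c : 𝒪, ev (MvPolynomial.C c) = algebraMap 𝒪 T c := hψC
  have hevX : ∀ i, ev (MvPolynomial.X i) = ψ (X i) := by
    intro i
    rw [← hev, MvPolynomial.coe_X]
  have hHψ : ∀ i, ψ (H i : MvPowerSeries (Fin n) 𝒪) = 0 := by
    intro i
    rw [hev, hH, covRel_apply]
    simp only [map_sub, map_add, map_sum, map_mul, map_pow, hevC, hevX, ← Algebra.smul_def]
    rw [hw i, sub_self, zero_add]
    have h2 : ∑ j, Matrix.of e i j • (ψ (X i) * ψ (X j)) = ψ (X i) * (ψ (X i) * ψ (X i)) := by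
      rw [← he i, Finset.mul_sum]
      refine Finset.sum_congr rfl fun j _ => ?_
      rw [mul_smul_comm]
      rfl
    rw [h2]; ring
  -- the socle element
  set c : MvPolynomial (Fin n) 𝒪 := a.det with hc
  have hcX : ∀ i, MvPolynomial.X i * c ∈ Ideal.span (Set.range H) := fun i => mul_det_mem a _ i
  have hcker : ∀ x ∈ RingHom.ker θ, ψ (c : MvPowerSeries (Fin n) 𝒪) * x = 0 := by
    intro x hx'
    have h1 : ∀ j, ψ (X j) * ψ (c : MvPowerSeries (Fin n) 𝒪) = 0 := by
      intro j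
      rw [hev, ← hevX, ← map_mul]
      have h3 : Ideal.span (Set.range H) ≤ RingHom.ker ev := by
        rw [Ideal.span_le]
        rintro _ ⟨i, rfl⟩
        exact hHψ i
      exact h3 (hcX j)
    rw [hspan] at hx'
    obtain ⟨b, rfl⟩ := (Ideal.mem_span_range_iff_exists_fun).mp hx'
    rw [Finset.mul_sum]
    refine Finset.sum_eq_zero fun i _ => ?_
    have : ψ (c : MvPowerSeries (Fin n) 𝒪) * (b i * ψ (X i)) =
      b i * (ψ (X i) * ψ (c : MvPowerSeries (Fin n) 𝒪)) := by ring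
    rw [this, h1, mul_zero]
  have hθc : θ (ψ (c : MvPowerSeries (Fin n) 𝒪)) = U.det := by
    rw [aug_comp ψ θ h0, hc, ha, constantCoeff_det_covMat]
  have hΦ : Module.length 𝒪 (RingHom.ker θ).Cotangent = Ring.ord 𝒪 U.det :=
    length_cotangent_eq θ (fun i => ψ (X i)) h0 hspan.le U hU hker
  have hordU : Ring.ord 𝒪 U.det ≤ Ring.ord 𝒪 η := hΦ ▸ hlen
  have hmap : (maximalIdeal 𝒪).map (algebraMap 𝒪 T) = Ideal.span {algebraMap 𝒪 T ϖ} :=
    map_maximalIdeal_eq hϖ T _
  -- the socle element is not divisible by `ϖ`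
  have hcb : ψ (c : MvPowerSeries (Fin n) 𝒪) ∉ (maximalIdeal 𝒪).map (algebraMap 𝒪 T) := by
    intro hmem
    rw [hmap, Ideal.mem_span_singleton'] at hmem
    obtain ⟨t, ht⟩ := hmem
    have ht' : ϖ • t = ψ (c : MvPowerSeries (Fin n) 𝒪) := by
      rw [Algebra.smul_def, mul_comm]; exact ht
    have ht1 : ∀ x ∈ RingHom.ker θ, t * x = 0 := by
      intro x hx'
      have h1 := hcker x hx'
      rw [← ht', smul_mul_assoc] at h1
      exact (smul_eq_zero.mp h1).resolve_left hϖ.ne_zero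
    obtain ⟨d, hd⟩ := hη t ht1
    have h2 : U.det = ϖ * (η * d) := by
      rw [← hθc, ← ht', map_smul, smul_eq_mul, hd]
    have h3 : Ring.ord 𝒪 (ϖ * η) ≤ Ring.ord 𝒪 U.det := by
      apply Ring.ord_le_ord_of_dvd
      rw [h2, ← mul_assoc]
      exact dvd_mul_right _ _
    rw [Ring.ord_mul _ (mem_nonZeroDivisors_of_ne_zero hη0), Ring.ord_of_irreducible hϖ] at h3
    have h4 := h3.trans hordU
    have h5 : Ring.ord 𝒪 η ≠ ⊤ := Ring.ord_ne_top (mem_nonZeroDivisors_of_ne_zero hη0)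
    rw [add_comm] at h4
    exact absurd h4 (not_le.mpr (ENat.lt_add_one_iff h5 |>.mpr le_rfl))
  -- nilpotence of the maximal ideal mod `ϖ`
  obtain ⟨N, hN⟩ := exists_pow_le (𝒪 := 𝒪) (T := T)
  have hpm : RingHom.ker θ ≤ maximalIdeal T := by
    apply le_maximalIdeal
    rw [Ideal.ne_top_iff_one, RingHom.mem_ker, map_one]
    exact one_ne_zero
  have hcomap := comap_le (ψ : MvPowerSeries (Fin n) 𝒪 →+* T)
    ((maximalIdeal 𝒪).map (algebraMap 𝒪 T)) H (fun i => covRel_sub_mem U w _ i)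
    (fun i => by
      have := hHψ i
      rw [RingHom.coe_coe, this]; exact zero_mem _)
    (fun b hb => by
      have h1 : (ψ : MvPowerSeries (Fin n) 𝒪 →+* T) (C b) = algebraMap 𝒪 T b := ψ.commutes b
      rw [h1]; exact Ideal.mem_map_of_mem _ hb)
    N (by
      refine le_trans (Ideal.pow_right_mono ?_ N) hN
      refine le_trans ?_ hpm
      rw [hspan]
      exact le_of_eq rfl)
    c hcX hcb
  -- Nakayama
  have hle : Ideal.span (Set.range fun i => (H i : MvPowerSeries (Fin n) 𝒪)) ≤ RingHom.ker ψ := by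
    rw [Ideal.span_le]
    rintro _ ⟨i, rfl⟩
    exact hHψ i
  have hge : RingHom.ker ψ ≤ Ideal.span (Set.range fun i => (H i : MvPowerSeries (Fin n) 𝒪)) := by
    apply Submodule.le_of_le_smul_of_le_jacobson_bot (I := Ideal.span {C ϖ})
    · exact IsNoetherian.noetherian _
    · rw [IsLocalRing.jacobson_eq_maximalIdeal ⊥ bot_ne_top, Ideal.span_singleton_le_iff_mem]
      exact C_mem_maximalIdeal ((IsLocalRing.mem_maximalIdeal _).mpr hϖ.not_isUnit)
    · intro g hg
      have h1 : g ∈ Ideal.comap (ψ : MvPowerSeries (Fin n) 𝒪 →+* T)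
          ((maximalIdeal 𝒪).map (algebraMap 𝒪 T)) := by
        rw [Ideal.mem_comap]
        have : (ψ : MvPowerSeries (Fin n) 𝒪 →+* T) g = 0 := hg
        rw [this]; exact zero_mem _
      have h2 := hcomap h1
      rw [map_maximalIdeal_eq hϖ] at h2
      obtain ⟨y, hy, z, hz, hyz⟩ := Submodule.mem_sup.mp h2
      rw [Ideal.mem_span_singleton'] at hz
      obtain ⟨z', rfl⟩ := hz
      have h3 : ψ (z' * C ϖ) = 0 := by
        have h4 : ψ y = 0 := hle hy
        have h5 : ψ g = 0 := hg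
        rw [← hyz, map_add, h4, zero_add] at h5
        exact h5
      have h4 : ψ z' = 0 := by
        have h6 : ψ (C ϖ) = algebraMap 𝒪 T ϖ := ψ.commutes ϖ
        rw [map_mul, h6, mul_comm, ← Algebra.smul_def] at h3
        exact (smul_eq_zero.mp h3).resolve_left hϖ.ne_zero
      rw [← hyz]
      refine Submodule.add_mem_sup hy ?_
      rw [mul_comm, smul_eq_mul]
      exact Ideal.mul_mem_mul (Ideal.mem_span_singleton_self _) h4
  refine ⟨fun i => (H i : MvPowerSeries (Fin n) 𝒪), le_antisymm hge hle, ?_, ?_, ?_⟩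
  · intro i
    exact constantCoeff_rel ψ θ h0 (hHψ i)
  · exact lin_covRel U w _
  · apply Ring.ord_le_ord_of_dvd
    rw [← hθc]
    exact hη _ hcker

end cover

section final

variable {𝒪 : Type*} [CommRing 𝒪] [IsDomain 𝒪] [IsDiscreteValuationRing 𝒪]

/-- the map on cotangent spaces -/
noncomputable def cotLift {R T : Type*} [CommRing R] [Algebra 𝒪 R] [CommRing T] [Algebra 𝒪 T]
    (φ : R →ₐ[𝒪] T) (θ : T →ₐ[𝒪] 𝒪) :
    (RingHom.ker (θ.comp φ)).Cotangent →ₗ[𝒪] (RingHom.ker θ).Cotangent :=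
  Ideal.mapCotangent (RingHom.ker (θ.comp φ)) (RingHom.ker θ) φ (fun _ hx => hx)

theorem cotLift_toCotangent {R T : Type*} [CommRing R] [Algebra 𝒪 R] [CommRing T] [Algebra 𝒪 T]
    (φ : R →ₐ[𝒪] T) (θ : T →ₐ[𝒪] 𝒪) (x : RingHom.ker (θ.comp φ)) :
    cotLift φ θ ((RingHom.ker (θ.comp φ)).toCotangent x) =
      (RingHom.ker θ).toCotangent ⟨φ x, x.2⟩ := rfl

theorem cotLift_surjective {R T : Type*} [CommRing R] [Algebra 𝒪 R] [CommRing T] [Algebra 𝒪 T]
    (φ : R →ₐ[𝒪] T) (hφ : Function.Surjective φ) (θ : T →ₐ[𝒪] 𝒪) :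
    Function.Surjective (cotLift φ θ) := by
  intro y
  obtain ⟨⟨t, ht⟩, rfl⟩ := (RingHom.ker θ).toCotangent_surjective y
  obtain ⟨r, rfl⟩ := hφ t
  exact ⟨(RingHom.ker (θ.comp φ)).toCotangent ⟨r, ht⟩, cotLift_toCotangent φ θ _⟩

theorem length_cotangent_le {R T : Type*} [CommRing R] [Algebra 𝒪 R] [CommRing T] [Algebra 𝒪 T]
    (φ : R →ₐ[𝒪] T) (hφ : Function.Surjective φ) (θ : T →ₐ[𝒪] 𝒪) :
    Module.length 𝒪 (RingHom.ker θ).Cotangent ≤
      Module.length 𝒪 (RingHom.ker (θ.comp φ)).Cotangent :=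
  Module.length_le_of_surjective _ (cotLift_surjective φ hφ θ)

theorem injective_of_length_le {M N : Type*} [AddCommGroup M] [Module 𝒪 M] [AddCommGroup N]
    [Module 𝒪 N] (f : M →ₗ[𝒪] N) (hf : Function.Surjective f)
    (hlen : Module.length 𝒪 M ≤ Module.length 𝒪 N) (htop : Module.length 𝒪 N ≠ ⊤) :
    Function.Injective f := by
  have h1 : Module.length 𝒪 M = Module.length 𝒪 (LinearMap.ker f) + Module.length 𝒪 N :=
    Module.length_eq_add_of_exact (LinearMap.ker f).subtype f (Submodule.injective_subtype _) hf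
      (LinearMap.exact_subtype_ker_map f)
  rw [h1] at hlen
  have h2 : Module.length 𝒪 (LinearMap.ker f) = 0 := by
    by_contra h3
    have h4 : 1 ≤ Module.length 𝒪 (LinearMap.ker f) := Order.one_le_iff_pos.mpr (pos_iff_ne_zero.mpr h3)
    have h5 : Module.length 𝒪 N + 1 ≤ Module.length 𝒪 N := by
      rw [add_comm]
      exact (add_le_add_left h4 _).trans hlen
    exact absurd h5 (not_le.mpr (ENat.lt_add_one_iff htop |>.mpr le_rfl))
  rw [Module.length_eq_zero_iff] at h2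
  rw [← LinearMap.ker_eq_bot]
  exact (Submodule.subsingleton_iff_eq_bot).mp h2

/-- **The Wiles–Lenstra numerical criterion.** -/
theorem numerical_criterion [IsAdicComplete (maximalIdeal 𝒪) 𝒪]
    {R : Type*} [CommRing R] [IsLocalRing R] [IsNoetherianRing R]
    [IsAdicComplete (maximalIdeal R) R] [Algebra 𝒪 R]
    {T : Type*} [CommRing T] [Algebra 𝒪 T] [Module.Finite 𝒪 T] [Module.Free 𝒪 T]
    (φ : R →ₐ[𝒪] T) (hφ : Function.Surjective φ) (θ : T →ₐ[𝒪] 𝒪) (η : 𝒪) (hη0 : η ≠ 0)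
    (hη : ∀ t : T, (∀ x ∈ RingHom.ker θ, t * x = 0) → η ∣ θ t)
    (hΦ : Module.length 𝒪 (RingHom.ker (θ.comp φ)).Cotangent ≤ Ring.ord 𝒪 η) :
    Function.Bijective φ ∧ IsCI 𝒪 T := by
  classical
  obtain ⟨ϖ, hϖ⟩ := IsDiscreteValuationRing.exists_irreducible 𝒪
  have hordη : Ring.ord 𝒪 η ≠ ⊤ := Ring.ord_ne_top (mem_nonZeroDivisors_of_ne_zero hη0)
  haveI : Nontrivial T := nontrivial_of_aug θ
  haveI : IsLocalRing T := IsLocalRing.of_surjective' (φ : R →+* T) hφ
  set lam : R →ₐ[𝒪] 𝒪 := θ.comp φ with hlam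
  haveI : IsLocalHom (algebraMap 𝒪 R) := by
    refine ⟨fun a ha => ?_⟩
    have h1 := ha.map lam
    rwa [AlgHom.commutes, Algebra.algebraMap_self_apply] at h1
  -- the cotangent space of `R` is killed by a nonzero element
  have hfin : Module.length 𝒪 (RingHom.ker lam).Cotangent ≠ ⊤ := fun h => by
    rw [h, top_le_iff] at hΦ; exact hordη hΦ
  have hlenT : Module.length 𝒪 (RingHom.ker θ).Cotangent ≤ Ring.ord 𝒪 η :=
    (length_cotangent_le φ hφ θ).trans hΦ
  have hfinT : Module.length 𝒪 (RingHom.ker θ).Cotangent ≠ ⊤ := fun h => by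
    rw [h, top_le_iff] at hlenT; exact hordη hlenT
  obtain ⟨a, ha0, ha⟩ := exists_smul_eq_zero_of_length_ne_top hfinT
  have haT : ∀ x ∈ RingHom.ker θ, a • x ∈ RingHom.ker θ ^ 2 := by
    intro x hx
    have h1 := ha ((RingHom.ker θ).toCotangent ⟨x, hx⟩)
    have h2 : a • (RingHom.ker θ).toCotangent ⟨x, hx⟩ =
        (RingHom.ker θ).toCotangent (a • (⟨x, hx⟩ : RingHom.ker θ)) := rfl
    rw [h2, Ideal.toCotangent_eq_zero] at h1
    exact h1
  obtain ⟨n, x, hx0, hx⟩ := exists_generators θ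
  obtain ⟨U, hU, hker⟩ := exists_relation_matrix θ x hx0 a ha0 fun i => haT _ (hx0 i)
  -- lifts to `R`
  choose y hy using fun i => hφ (x i)
  have hy0 : ∀ i, lam (y i) = 0 := by
    intro i
    rw [hlam, AlgHom.comp_apply, hy, hx0]
  have hpm : RingHom.ker lam ≤ maximalIdeal R := by
    apply le_maximalIdeal
    rw [Ideal.ne_top_iff_one, RingHom.mem_ker, map_one]
    exact one_ne_zero
  obtain ⟨ψR, hψR⟩ := exists_eval (𝒪 := 𝒪) y fun i => hpm (hy0 i)
  set ψ : MvPowerSeries (Fin n) 𝒪 →ₐ[𝒪] T := φ.comp ψR with hψ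
  have hψX : ∀ i, ψ (X i) = x i := by
    intro i
    rw [hψ, AlgHom.comp_apply, hψR, hy]
  have h0 : ∀ i, θ (ψ (X i)) = 0 := fun i => by rw [hψX, hx0]
  have h0R : ∀ i, lam (ψR (X i)) = 0 := fun i => by rw [hψR, hy0]
  obtain ⟨h, hkerψ, hh0, hlin, hordU⟩ := ker_eq_of_numerical θ ψ h0
    (by simpa only [hψX] using hx) U hU (by simpa only [hψX] using hker) η hη0 hη hlenT
  -- the cotangent spaces agree
  have hΦT : Module.length 𝒪 (RingHom.ker θ).Cotangent = Ring.ord 𝒪 U.det := by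
    refine length_cotangent_eq θ x hx0 ?_ U hU hker
    intro t ht
    obtain ⟨u, hu⟩ := hx t ht
    rw [← hu]
    refine Ideal.sum_mem _ fun i _ => ?_
    rw [Algebra.smul_def]
    exact Ideal.mul_mem_left _ _ (Ideal.subset_span ⟨i, rfl⟩)
  have hinj : Function.Injective (cotLift φ θ) := by
    apply injective_of_length_le _ (cotLift_surjective φ hφ θ) _ hfinT
    rw [hΦT]
    exact hΦ.trans hordU
  have hsqR : ∀ r : R, φ r ∈ RingHom.ker θ ^ 2 → r ∈ RingHom.ker lam ^ 2 := by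
    intro r hr
    have hr1 : r ∈ RingHom.ker lam := by
      have : φ r ∈ RingHom.ker θ := Ideal.pow_le_self two_ne_zero hr
      exact this
    have h1 : cotLift φ θ ((RingHom.ker lam).toCotangent ⟨r, hr1⟩) = 0 := by
      refine (cotLift_toCotangent φ θ ⟨r, hr1⟩).trans ?_
      rw [Ideal.toCotangent_eq_zero]
      exact hr
    have h2 := (injective_iff_map_eq_zero _).mp hinj _ h1
    rw [Ideal.toCotangent_eq_zero] at h2
    exact h2
  -- `y` generates the augmentation ideal of `R`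
  have hspanR : RingHom.ker lam ≤ Ideal.span (Set.range y) := by
    apply Submodule.le_of_le_smul_of_le_jacobson_bot (I := RingHom.ker lam)
    · exact IsNoetherian.noetherian _
    · rw [IsLocalRing.jacobson_eq_maximalIdeal ⊥ bot_ne_top]
      exact hpm
    · intro r hr
      obtain ⟨u, hu⟩ := hx (φ r) hr
      have h1 : r - ∑ i, u i • y i ∈ RingHom.ker lam ^ 2 := by
        apply hsqR
        rw [map_sub, map_sum]
        simp only [map_smul, hy, hu, sub_self]
        exact zero_mem _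
      have h2 : r = ∑ i, u i • y i + (r - ∑ i, u i • y i) := by ring
      rw [h2]
      refine Submodule.add_mem_sup ?_ ?_
      · refine Ideal.sum_mem _ fun i _ => ?_
        rw [Algebra.smul_def]
        exact Ideal.mul_mem_left _ _ (Ideal.subset_span ⟨i, rfl⟩)
      · rw [smul_eq_mul, ← sq]
        exact h1
  -- surjectivity of `ψR`
  have hψRs : Function.Surjective ψR := by
    apply eval_surjective
    · intro z
      obtain ⟨r, rfl⟩ := residue_surjective z
      refine ⟨lam r, ?_⟩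
      rw [Function.comp_apply]
      have h1 := hpm (sub_mem_ker lam r)
      rw [← IsLocalRing.residue_eq_zero_iff, map_sub, sub_eq_zero] at h1
      exact h1.symm
    · intro i
      rw [hψR]
      exact hpm (hy0 i)
    · intro r hr
      have h1 : r = (r - algebraMap 𝒪 R (lam r)) + algebraMap 𝒪 R (lam r) := by ring
      rw [h1]
      refine Submodule.add_mem_sup ?_ (Ideal.mem_map_of_mem _ ?_)
      · have h2 := hspanR (sub_mem_ker lam r)
        simpa only [hψR] using h2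
      · rw [IsLocalRing.mem_maximalIdeal]
        intro hu
        have h2 : algebraMap 𝒪 R (lam r) ∈ maximalIdeal R := by
          have h3 := sub_mem hr (hpm (sub_mem_ker lam r))
          rwa [sub_sub_cancel] at h3
        exact (IsLocalRing.mem_maximalIdeal _).mp h2 (hu.map (algebraMap 𝒪 R))
  -- elements of the kernel of `ψR` with linear part given by `U`
  have hg : ∀ i, ∃ g ∈ RingHom.ker ψR, lin g = U i := by
    intro i
    rw [← sum_mem_sq_iff ψR lam hψRs h0R]
    apply hsqR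
    rw [map_sum]
    simp only [map_smul, hψR, hy]
    rw [hker]
    refine ⟨Pi.single i 1, ?_⟩
    rw [Matrix.single_one_vecMul]
    rfl
  choose g hgker hglin using hg
  have hgspan : ∀ i, g i ∈ Ideal.span (Set.range h) := by
    intro i
    rw [← hkerψ, RingHom.mem_ker, hψ, AlgHom.comp_apply, (RingHom.mem_ker).mp (hgker i), map_zero]
  choose b hb using fun i => (Ideal.mem_span_range_iff_exists_fun).mp (hgspan i)
  let b0 : Matrix (Fin n) (Fin n) 𝒪 := fun i j => constantCoeff (b i j)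
  have hb0 : b0 * U = U := by
    ext i j
    have h1 : lin (g i) j = ∑ k, constantCoeff (b i k) * lin (h k) j := by
      rw [← hb i, lin_sum, Finset.sum_apply]
      refine Finset.sum_congr rfl fun k _ => ?_
      rw [lin_mul, hh0 k, mul_zero, add_zero]
    rw [hglin i] at h1
    rw [Matrix.mul_apply]
    conv_rhs => rw [h1]
    refine Finset.sum_congr rfl fun k _ => ?_
    rw [← hlin]
    rfl
  have hdetb0 : b0.det = 1 := by
    have h1 := congrArg Matrix.det hb0
    rw [Matrix.det_mul] at h1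
    exact mul_right_cancel₀ hU (h1.trans (one_mul _).symm)
  have hdetb : IsUnit (Matrix.det (Matrix.of b)) := by
    rw [MvPowerSeries.isUnit_iff_constantCoeff, RingHom.map_det]
    have h1 : (constantCoeff (σ := Fin n) (R := 𝒪)).mapMatrix (Matrix.of b) = b0 := by
      ext i j; rfl
    rw [h1, hdetb0]
    exact isUnit_one
  have hgb : (Matrix.of b).mulVec h = g := by
    funext i
    rw [Matrix.mulVec, dotProduct, ← hb i]
    rfl
  have hhR : ∀ i, h i ∈ RingHom.ker ψR := by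
    intro i
    have h1 : ((Matrix.of b)⁻¹).mulVec g = h := by
      rw [← hgb, Matrix.mulVec_mulVec, Matrix.nonsing_inv_mul _ hdetb, Matrix.one_mulVec]
    rw [← h1, Matrix.mulVec, dotProduct]
    exact Ideal.sum_mem _ fun j _ => Ideal.mul_mem_left _ _ (hgker j)
  have hψs : Function.Surjective ψ := hφ.comp hψRs
  refine ⟨⟨?_, hφ⟩, n, h, ψ, hψs, hkerψ⟩
  rw [injective_iff_map_eq_zero]
  intro r hr
  obtain ⟨f, rfl⟩ := hψRs r
  have h1 : f ∈ RingHom.ker ψ := hr
  rw [hkerψ] at h1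
  have h2 : Ideal.span (Set.range h) ≤ RingHom.ker ψR := by
    rw [Ideal.span_le]
    rintro _ ⟨i, rfl⟩
    exact hhR i
  exact h2 h1

end final

end Fermat.Agent.RT.NC
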