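import Mathlib.LinearAlgebra.FreeModule.Finite.Quotient
import Mathlib.RingTheory.OrderOfVanishing.Basic
import Mathlib.LinearAlgebra.Determinant

/-!
# Length of the cokernel of an endomorphism
-/

set_option autoImplicit false

namespace Fermat.Agent.RT.NC

open Module

variable {R : Type*} [CommRing R] [IsDomain R] [IsPrincipalIdealRing R]

theorem ord_prod {ι : Type*} (s : Finset ι) (a : ι → R) (ha : ∀ i ∈ s, a i ≠ 0) :
    Ring.ord R (∏ i ∈ s, a i) = ∑ i ∈ s, Ring.ord R (a i) := by
  classical
  induction s using Finset.induction_on with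
  | empty => simp
  | insert i s hi ih =>
    rw [Finset.prod_insert hi, Finset.sum_insert hi, Ring.ord_mul,
      ih fun j hj => ha j (Finset.mem_insert_of_mem hj)]
    exact mem_nonZeroDivisors_of_ne_zero
      (Finset.prod_ne_zero_iff.mpr fun j hj => ha j (Finset.mem_insert_of_mem hj))

/-- **Length of the cokernel of an injective endomorphism is the order of its determinant.** -/
theorem length_quotient_range {ι : Type*} [Fintype ι] [DecidableEq ι] {M : Type*}
    [AddCommGroup M] [Module R M] (b : Basis ι R M) (g : M →ₗ[R] M)
    (hg : LinearMap.det g ≠ 0) :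
    Module.length R (M ⧸ LinearMap.range g) = Ring.ord R (LinearMap.det g) := by
  have hfree : Module.Free R M := Module.Free.of_basis b
  have hfin : Module.Finite R M := Module.Finite.of_basis b
  have hinj : Function.Injective g := by
    rw [← LinearMap.ker_eq_bot]
    by_contra h
    exact hg (LinearMap.det_eq_zero_iff_ker_ne_bot.mpr h)
  let e : M ≃ₗ[R] LinearMap.range g := LinearEquiv.ofInjective g hinj
  have hrank : Module.finrank R (LinearMap.range g) = Module.finrank R M := e.symm.finrank_eq
  let b' := Submodule.smithNormalFormTopBasis b hrank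
  let ab := Submodule.smithNormalFormBotBasis b hrank
  let a := Submodule.smithNormalFormCoeffs b hrank
  have hab : ∀ i, (ab i : M) = a i • b' i := Submodule.smithNormalFormBotBasis_def b hrank
  have ha : ∀ i, a i ≠ 0 := Submodule.smithNormalFormCoeffs_ne_zero b hrank
  -- the diagonal map
  let φ : M →ₗ[R] M := b'.constr R fun i => a i • b' i
  let u : M ≃ₗ[R] M := e.trans (ab.equiv b' (Equiv.refl ι))
  have hg' : g = φ ∘ₗ (u : M →ₗ[R] M) := by
    have h1 : ∀ y : LinearMap.range g, φ (ab.equiv b' (Equiv.refl ι) y) = (y : M) := by
      intro y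
      have h2 : φ ∘ₗ (ab.equiv b' (Equiv.refl ι) : LinearMap.range g →ₗ[R] M) =
          (LinearMap.range g).subtype := by
        apply ab.ext
        intro i
        rw [LinearMap.comp_apply, LinearEquiv.coe_coe, Basis.equiv_apply, Equiv.refl_apply,
          Basis.constr_basis, Submodule.subtype_apply, hab]
      exact LinearMap.congr_fun h2 y
    ext x
    rw [LinearMap.comp_apply]
    change g x = φ (ab.equiv b' (Equiv.refl ι) (e x))
    rw [h1]
    rfl
  have hdetφ : LinearMap.det φ = ∏ i, a i := by
    rw [← LinearMap.det_toMatrix b']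
    have : LinearMap.toMatrix b' b' φ = Matrix.diagonal a := by
      ext i j
      rw [LinearMap.toMatrix_apply, Basis.constr_basis, map_smul, Basis.repr_self,
        Finsupp.smul_apply, Finsupp.single_apply, Matrix.diagonal_apply, smul_eq_mul]
      by_cases h : i = j
      · subst h; simp
      · rw [if_neg (Ne.symm h), if_neg h, mul_zero]
    rw [this, Matrix.det_diagonal]
  have hdet : LinearMap.det g = LinearMap.det φ * LinearMap.det (u : M →ₗ[R] M) := by
    conv_lhs => rw [hg']
    rw [LinearMap.det_comp]
  have hlen : Module.length R (M ⧸ LinearMap.range g) =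
      ∑ i, Module.length R (R ⧸ Ideal.span {a i}) := by
    rw [((LinearMap.range g).quotientEquivPiSpan b hrank).length_eq, Module.length_pi_of_fintype]
  rw [hlen, hdet, hdetφ, mul_comm, Ring.ord_mul_of_isUnit_left (u.isUnit_det'), ord_prod _ _
    (fun i _ => ha i)]
  rfl

end Fermat.Agent.RT.NC
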