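import Mathlib.Algebra.MvPolynomial.Basic
import Mathlib.Algebra.MvPolynomial.Degrees
import Mathlib.RingTheory.MvPolynomial.Basic
import Mathlib.Data.Finsupp.Weight
import Mathlib.Algebra.MvPolynomial.CommRing
import Mathlib.RingTheory.Ideal.Operations

/-!
# The Frobenius form of `k[X]/(h)` where `h_i = X_i ^ 3 + (terms of degree ≤ 2)`
-/

set_option autoImplicit false
set_option linter.unusedSectionVars false

namespace Fermat.Agent.RT.NC

open MvPolynomial

section filtration

variable {k : Type*} [CommRing k] {n : ℕ}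

/-- polynomials of total degree `< d` -/
def Fl (k : Type*) [CommRing k] (n d : ℕ) : Submodule k (MvPolynomial (Fin n) k) where
  carrier := {p | ∀ m : Fin n →₀ ℕ, d ≤ m.degree → coeff m p = 0}
  add_mem' := by
    intro a b ha hb m hm
    rw [coeff_add, ha m hm, hb m hm, add_zero]
  zero_mem' := by intro m _; simp
  smul_mem' := by
    intro c p hp m hm
    rw [coeff_smul, hp m hm, smul_zero]

theorem mem_Fl {d : ℕ} {p : MvPolynomial (Fin n) k} :
    p ∈ Fl k n d ↔ ∀ m : Fin n →₀ ℕ, d ≤ m.degree → coeff m p = 0 := Iff.rfl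

theorem Fl_mono {d d' : ℕ} (h : d ≤ d') : Fl k n d ≤ Fl k n d' :=
  fun _ hp m hm => hp m (h.trans hm)

theorem eq_zero_of_mem_Fl_zero {p : MvPolynomial (Fin n) k} (hp : p ∈ Fl k n 0) : p = 0 := by
  ext m
  rw [hp m (Nat.zero_le _), coeff_zero]

theorem exists_mem_Fl (p : MvPolynomial (Fin n) k) : ∃ d, p ∈ Fl k n d := by
  classical
  refine ⟨(p.support.sup fun m => m.degree) + 1, fun m hm => ?_⟩
  by_contra h
  have h1 : m ∈ p.support := by rwa [mem_support_iff]
  have h2 : m.degree ≤ p.support.sup fun m => m.degree :=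
    Finset.le_sup (f := fun m : Fin n →₀ ℕ => m.degree) h1
  omega

theorem mul_mem_Fl {a b : ℕ} {p q : MvPolynomial (Fin n) k} (hp : p ∈ Fl k n (a + 1))
    (hq : q ∈ Fl k n b) : p * q ∈ Fl k n (a + b) := by
  classical
  intro m hm
  rw [coeff_mul]
  refine Finset.sum_eq_zero fun x hx => ?_
  rw [Finset.mem_antidiagonal] at hx
  have h1 : x.1.degree + x.2.degree = m.degree := by rw [← hx, map_add]
  by_cases h2 : a + 1 ≤ x.1.degree
  · rw [hp _ h2, zero_mul]
  · rw [hq _ (by omega), mul_zero]

theorem monomial_mem_Fl (m : Fin n →₀ ℕ) (c : k) : monomial m c ∈ Fl k n (m.degree + 1) := by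
  classical
  intro m' hm'
  rw [coeff_monomial, if_neg]
  rintro rfl
  omega

/-- `p'` is a leading part of `p` in degree `d` -/
def IsLead (d : ℕ) (p p' : MvPolynomial (Fin n) k) : Prop :=
  p' ∈ Fl k n (d + 1) ∧ p - p' ∈ Fl k n d

theorem IsLead.mem {d : ℕ} {p p' : MvPolynomial (Fin n) k} (h : IsLead d p p') :
    p ∈ Fl k n (d + 1) := by
  have := add_mem (Fl_mono (Nat.le_succ d) h.2) h.1
  rwa [sub_add_cancel] at this

theorem IsLead.mul {a b : ℕ} {p p' q q' : MvPolynomial (Fin n) k} (h : IsLead a p p')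
    (h' : IsLead b q q') : IsLead (a + b) (p * q) (p' * q') := by
  refine ⟨mul_mem_Fl (a := a) (b := b + 1) h.1 h'.1, ?_⟩
  have h1 : p * q - p' * q' = q * (p - p') + p' * (q - q') := by ring
  rw [h1]
  refine add_mem ?_ (mul_mem_Fl h.1 h'.2)
  rw [add_comm]
  exact mul_mem_Fl h'.mem h.2

theorem isLead_one : IsLead 0 (1 : MvPolynomial (Fin n) k) 1 := by
  refine ⟨?_, by rw [sub_self]; exact zero_mem _⟩
  have := monomial_mem_Fl (k := k) (0 : Fin n →₀ ℕ) 1
  simpa using this

theorem IsLead.pow {a : ℕ} {p p' : MvPolynomial (Fin n) k} (h : IsLead a p p') (q : ℕ) :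
    IsLead (q * a) (p ^ q) (p' ^ q) := by
  induction q with
  | zero => simpa using isLead_one
  | succ q ih =>
    rw [pow_succ, pow_succ, Nat.succ_mul]
    exact ih.mul h

theorem isLead_prod {ι : Type*} (s : Finset ι) (a : ι → ℕ)
    (p p' : ι → MvPolynomial (Fin n) k) (h : ∀ i ∈ s, IsLead (a i) (p i) (p' i)) :
    IsLead (∑ i ∈ s, a i) (∏ i ∈ s, p i) (∏ i ∈ s, p' i) := by
  classical
  induction s using Finset.induction_on with
  | empty => simpa using isLead_one
  | insert i s hi ih =>
    rw [Finset.sum_insert hi, Finset.prod_insert hi, Finset.prod_insert hi]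
    exact (h i (Finset.mem_insert_self _ _)).mul
      (ih fun j hj => h j (Finset.mem_insert_of_mem hj))

end filtration

section form

variable {k : Type*} [CommRing k] {n : ℕ}

/-- the part of an exponent modulo 3 -/
noncomputable def rem3 (m : Fin n →₀ ℕ) : Fin n →₀ ℕ := m.mapRange (fun j => j % 3) (Nat.zero_mod 3)

/-- images of monomials -/
noncomputable def psiMon (H : Fin n → MvPolynomial (Fin n) k) (m : Fin n →₀ ℕ) :
    MvPolynomial (Fin n) k :=
  (∏ i, H i ^ (m i / 3)) * monomial (rem3 m) 1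

/-- the linear map `X ^ m ↦ H ^ (m / 3) X ^ (m % 3)` -/
noncomputable def psi (H : Fin n → MvPolynomial (Fin n) k) :
    MvPolynomial (Fin n) k →ₗ[k] MvPolynomial (Fin n) k :=
  (basisMonomials (Fin n) k).constr k (psiMon H)

theorem psi_monomial (H : Fin n → MvPolynomial (Fin n) k) (m : Fin n →₀ ℕ) :
    psi H (monomial m 1) = psiMon H m := by
  have h1 : monomial m (1 : k) = basisMonomials (Fin n) k m := by
    rw [coe_basisMonomials]
  rw [psi, h1, Module.Basis.constr_basis]

theorem monomial_eq_prod (m : Fin n →₀ ℕ) :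
    (∏ i, ((X i : MvPolynomial (Fin n) k) ^ 3) ^ (m i / 3)) * monomial (rem3 m) 1 =
      monomial m 1 := by
  classical
  have h1 : ∀ m : Fin n →₀ ℕ, monomial m (1 : k) = ∏ i, (X i : MvPolynomial (Fin n) k) ^ (m i) := by
    intro m
    rw [monomial_eq, C_1, one_mul, Finsupp.prod_fintype _ _ (fun i => pow_zero _)]
  rw [h1 (rem3 m), h1 m, ← Finset.prod_mul_distrib]
  refine Finset.prod_congr rfl fun i _ => ?_
  rw [← pow_mul, ← pow_add, rem3, Finsupp.mapRange_apply, Nat.div_add_mod]

theorem isLead_psiMon (H : Fin n → MvPolynomial (Fin n) k)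
    (hH : ∀ i, H i - X i ^ 3 ∈ Fl k n 3) (m : Fin n →₀ ℕ) :
    IsLead m.degree (psiMon H m) (monomial m 1) := by
  classical
  have h1 : ∀ i, IsLead 3 (H i) (X i ^ 3) := by
    intro i
    refine ⟨?_, hH i⟩
    have := monomial_mem_Fl (k := k) (Finsupp.single i 3) 1
    rw [Finsupp.degree_single] at this
    rwa [X_pow_eq_monomial]
  have h2 : IsLead (∑ i, m i / 3 * 3) (∏ i, H i ^ (m i / 3)) (∏ i, (X i ^ 3) ^ (m i / 3)) :=
    isLead_prod _ _ _ _ fun i _ => (h1 i).pow _
  have h3 : IsLead (rem3 m).degree (monomial (rem3 m) (1 : k)) (monomial (rem3 m) 1) :=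
    ⟨monomial_mem_Fl _ _, by rw [sub_self]; exact zero_mem _⟩
  have h4 := h2.mul h3
  rw [monomial_eq_prod] at h4
  have h5 : ∑ i, m i / 3 * 3 + (rem3 m).degree = m.degree := by
    rw [Finsupp.degree_eq_sum, Finsupp.degree_eq_sum, ← Finset.sum_add_distrib]
    refine Finset.sum_congr rfl fun i _ => ?_
    rw [rem3, Finsupp.mapRange_apply]
    omega
  rwa [h5] at h4

theorem psi_sub_mem (H : Fin n → MvPolynomial (Fin n) k)
    (hH : ∀ i, H i - X i ^ 3 ∈ Fl k n 3) {d : ℕ} {p : MvPolynomial (Fin n) k}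
    (hp : p ∈ Fl k n (d + 1)) : psi H p - p ∈ Fl k n d := by
  classical
  have h1 : psi H p - p = ∑ m ∈ p.support, coeff m p • (psiMon H m - monomial m 1) := by
    conv_lhs => rw [p.as_sum]
    rw [map_sum, ← Finset.sum_sub_distrib]
    refine Finset.sum_congr rfl fun m _ => ?_
    have h2 : monomial m (coeff m p) = coeff m p • monomial m (1 : k) := by
      rw [smul_monomial, smul_eq_mul, mul_one]
    rw [h2, map_smul, psi_monomial, smul_sub]
  rw [h1]
  refine Submodule.sum_mem _ fun m hm => Submodule.smul_mem _ _ ?_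
  refine Fl_mono ?_ (isLead_psiMon H hH m).2
  by_contra h
  rw [mem_support_iff] at hm
  exact hm (hp m (by omega))

theorem psi_injective (H : Fin n → MvPolynomial (Fin n) k)
    (hH : ∀ i, H i - X i ^ 3 ∈ Fl k n 3) : Function.Injective (psi H) := by
  rw [injective_iff_map_eq_zero]
  intro p hp
  obtain ⟨d, hd⟩ := exists_mem_Fl p
  have key : ∀ d, p ∈ Fl k n d → p = 0 := by
    intro d
    induction d with
    | zero => exact eq_zero_of_mem_Fl_zero
    | succ d ih =>
      intro h
      apply ih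
      have := psi_sub_mem H hH h
      rw [hp, zero_sub] at this
      exact (neg_mem_iff.mp this)
  exact key d hd

theorem exists_psi_eq (H : Fin n → MvPolynomial (Fin n) k)
    (hH : ∀ i, H i - X i ^ 3 ∈ Fl k n 3) (d : ℕ) : ∀ p ∈ Fl k n (d + 1),
      ∃ q, psi H q = p ∧ q - p ∈ Fl k n d := by
  induction d with
  | zero =>
    intro p hp
    refine ⟨p, ?_, by rw [sub_self]; exact zero_mem _⟩
    rw [← sub_eq_zero]
    exact eq_zero_of_mem_Fl_zero (psi_sub_mem H hH hp)
  | succ d ih =>
    intro p hp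
    obtain ⟨q', h1, h2⟩ := ih _ (psi_sub_mem H hH hp)
    refine ⟨p - q', by rw [map_sub, h1, sub_sub_cancel], ?_⟩
    have h3 : p - q' - p = -(q' - (psi H p - p)) - (psi H p - p) := by ring
    rw [h3]
    exact sub_mem (neg_mem (Fl_mono (Nat.le_succ d) h2)) (psi_sub_mem H hH hp)

theorem psi_surjective (H : Fin n → MvPolynomial (Fin n) k)
    (hH : ∀ i, H i - X i ^ 3 ∈ Fl k n 3) : Function.Surjective (psi H) := by
  intro p
  obtain ⟨d, hd⟩ := exists_mem_Fl p
  obtain ⟨q, hq, _⟩ := exists_psi_eq H hH d p (Fl_mono (Nat.le_succ d) hd)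
  exact ⟨q, hq⟩

/-- the exponent `(2, …, 2)` -/
noncomputable def two (n : ℕ) : Fin n →₀ ℕ := Finsupp.equivFunOnFinite.symm fun _ => 2

@[simp] theorem two_apply (i : Fin n) : two n i = 2 := rfl

/-- the inverse of `psi` -/
noncomputable def psiEquiv (H : Fin n → MvPolynomial (Fin n) k)
    (hH : ∀ i, H i - X i ^ 3 ∈ Fl k n 3) :
    MvPolynomial (Fin n) k ≃ₗ[k] MvPolynomial (Fin n) k :=
  LinearEquiv.ofBijective (psi H) ⟨psi_injective H hH, psi_surjective H hH⟩

/-- the Frobenius form -/
noncomputable def tau (H : Fin n → MvPolynomial (Fin n) k)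
    (hH : ∀ i, H i - X i ^ 3 ∈ Fl k n 3) : MvPolynomial (Fin n) k →ₗ[k] k :=
  lcoeff k (two n) ∘ₗ (psiEquiv H hH).symm.toLinearMap

theorem tau_psi (H : Fin n → MvPolynomial (Fin n) k)
    (hH : ∀ i, H i - X i ^ 3 ∈ Fl k n 3) (q : MvPolynomial (Fin n) k) :
    tau H hH (psi H q) = coeff (two n) q := by
  have h1 : psi H q = psiEquiv H hH q := rfl
  rw [tau, LinearMap.comp_apply, h1, LinearEquiv.coe_toLinearMap, LinearEquiv.symm_apply_apply]
  rfl

theorem tau_eq (H : Fin n → MvPolynomial (Fin n) k)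
    (hH : ∀ i, H i - X i ^ 3 ∈ Fl k n 3) {p : MvPolynomial (Fin n) k}
    (hp : p ∈ Fl k n ((two n).degree + 1)) : tau H hH p = coeff (two n) p := by
  obtain ⟨q, hq, hq'⟩ := exists_psi_eq H hH _ p hp
  have h1 : coeff (two n) (q - p) = 0 := hq' _ le_rfl
  rw [MvPolynomial.coeff_sub, sub_eq_zero] at h1
  rw [← h1, ← hq, tau_psi]

theorem psiMon_mul (H : Fin n → MvPolynomial (Fin n) k) (m : Fin n →₀ ℕ) (i : Fin n) :
    psiMon H m * H i = psiMon H (m + Finsupp.single i 3) := by
  classical
  have h1 : rem3 (m + Finsupp.single i 3) = rem3 m := by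
    ext j
    simp only [rem3, Finsupp.mapRange_apply, Finsupp.add_apply, Finsupp.single_apply]
    split_ifs <;> omega
  have h2 : (∏ j, H j ^ ((m + Finsupp.single i 3 : Fin n →₀ ℕ) j / 3)) = (∏ j, H j ^ (m j / 3)) * H i := by
    have h3 : ∀ j, H j ^ ((m + Finsupp.single i 3 : Fin n →₀ ℕ) j / 3) =
        H j ^ (m j / 3) * (if j = i then H i else 1) := by
      intro j
      simp only [Finsupp.add_apply, Finsupp.single_apply]
      by_cases h : j = i
      · subst h
        rw [if_pos rfl, if_pos rfl, ← pow_succ]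
        congr 1
        omega
      · rw [if_neg (Ne.symm h), if_neg h, mul_one, add_zero]
    rw [Finset.prod_congr rfl fun j _ => h3 j, Finset.prod_mul_distrib,
      Finset.prod_ite_eq' Finset.univ i fun _ => H i, if_pos (Finset.mem_univ _)]
  rw [psiMon, psiMon, h1, h2]
  ring

theorem tau_mul_eq_zero (H : Fin n → MvPolynomial (Fin n) k)
    (hH : ∀ i, H i - X i ^ 3 ∈ Fl k n 3) (g : MvPolynomial (Fin n) k) (i : Fin n) :
    tau H hH (g * H i) = 0 := by
  classical
  obtain ⟨q, rfl⟩ := psi_surjective H hH g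
  have h1 : psi H q * H i = psi H (q * X i ^ 3) := by
    rw [q.as_sum, map_sum, Finset.sum_mul, Finset.sum_mul, map_sum]
    refine Finset.sum_congr rfl fun m _ => ?_
    have h2 : monomial m (coeff m q) = coeff m q • monomial m (1 : k) := by
      rw [smul_monomial, smul_eq_mul, mul_one]
    rw [h2, map_smul, psi_monomial, smul_mul_assoc, smul_mul_assoc, map_smul, psiMon_mul,
      X_pow_eq_monomial, monomial_mul, one_mul, psi_monomial]
  rw [h1, tau_psi, X_pow_eq_monomial, coeff_mul_monomial', if_neg]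
  intro h
  have := h i
  simp at this

theorem tau_eq_zero_of_mem (H : Fin n → MvPolynomial (Fin n) k)
    (hH : ∀ i, H i - X i ^ 3 ∈ Fl k n 3) {g : MvPolynomial (Fin n) k}
    (hg : g ∈ Ideal.span (Set.range H)) : tau H hH g = 0 := by
  obtain ⟨c, rfl⟩ := (Ideal.mem_span_range_iff_exists_fun).mp hg
  rw [map_sum]
  exact Finset.sum_eq_zero fun i _ => tau_mul_eq_zero H hH _ i

/-- reduction to normal form -/
theorem exists_normal_form (H : Fin n → MvPolynomial (Fin n) k)
    (hH : ∀ i, H i - X i ^ 3 ∈ Fl k n 3) (p : MvPolynomial (Fin n) k) :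
    ∃ w : MvPolynomial (Fin n) k, (∀ m, coeff m w ≠ 0 → ∀ i, m i < 3) ∧
      p - w ∈ Ideal.span (Set.range H) := by
  classical
  obtain ⟨q, rfl⟩ := psi_surjective H hH p
  induction q using MvPolynomial.induction_on' with
  | monomial m a =>
    have h2 : monomial m a = a • monomial m (1 : k) := by
      rw [smul_monomial, smul_eq_mul, mul_one]
    by_cases h : ∀ i, m i < 3
    · refine ⟨monomial m a, ?_, ?_⟩
      · intro m' hm'
        rw [coeff_monomial] at hm'
        have : m = m' := by
          by_contra h3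
          rw [if_neg h3] at hm'
          exact hm' rfl
        rwa [← this]
      · have h3 : psiMon H m = monomial m 1 := by
          rw [psiMon]
          have h4 : rem3 m = m := by
            ext i
            rw [rem3, Finsupp.mapRange_apply, Nat.mod_eq_of_lt (h i)]
          have h5 : ∀ i, H i ^ (m i / 3) = 1 := by
            intro i
            rw [Nat.div_eq_of_lt (h i), pow_zero]
          rw [h4, Finset.prod_congr rfl fun i _ => h5 i, Finset.prod_const_one, one_mul]
        rw [h2, map_smul, psi_monomial, h3, sub_self]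
        exact zero_mem _
    · push Not at h
      obtain ⟨i, hi⟩ := h
      refine ⟨0, fun m hm => absurd (coeff_zero m) hm, ?_⟩
      rw [sub_zero, h2, map_smul, psi_monomial]
      have h3 : m = (m - Finsupp.single i 3) + Finsupp.single i 3 := by
        ext j
        simp only [Finsupp.add_apply, Finsupp.tsub_apply, Finsupp.single_apply]
        split_ifs with h4
        · subst h4; omega
        · omega
      rw [h3, ← psiMon_mul, ← smul_mul_assoc]
      exact Ideal.mul_mem_left _ _ (Ideal.subset_span ⟨i, rfl⟩)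
  | add p q hp hq =>
    obtain ⟨w, h1, h2⟩ := hp
    obtain ⟨w', h1', h2'⟩ := hq
    refine ⟨w + w', ?_, ?_⟩
    · intro m hm
      by_contra h
      have h3 : coeff m w = 0 := by
        by_contra h4; exact h (h1 m h4)
      have h3' : coeff m w' = 0 := by
        by_contra h4; exact h (h1' m h4)
      rw [coeff_add, h3, h3', add_zero] at hm
      exact hm rfl
    · rw [map_add]
      have := add_mem h2 h2'
      have h3 : psi H p - w + (psi H q - w') = psi H p + psi H q - (w + w') := by ring
      rwa [h3] at this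

/-- nondegeneracy of the form -/
theorem exists_tau_mul_ne_zero (H : Fin n → MvPolynomial (Fin n) k)
    (hH : ∀ i, H i - X i ^ 3 ∈ Fl k n 3) (p : MvPolynomial (Fin n) k)
    (hp : p ∉ Ideal.span (Set.range H)) : ∃ z, tau H hH (p * z) ≠ 0 := by
  classical
  obtain ⟨w, hw, hpw⟩ := exists_normal_form H hH p
  have hw0 : w ≠ 0 := by
    rintro rfl
    rw [sub_zero] at hpw
    exact hp hpw
  have hne : w.support.Nonempty := by
    rw [Finset.nonempty_iff_ne_empty]
    intro h
    exact hw0 (support_eq_empty.mp h)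
  obtain ⟨e, he, hmax⟩ := Finset.exists_max_image w.support (fun m => m.degree) hne
  rw [mem_support_iff] at he
  have hle : e ≤ two n := by
    intro i
    have := hw e he i
    rw [two_apply]; omega
  have hadd : e + (two n - e) = two n := add_tsub_cancel_of_le hle
  refine ⟨monomial (two n - e) 1, ?_⟩
  have h1 : tau H hH (p * monomial (two n - e) 1) = tau H hH (w * monomial (two n - e) 1) := by
    rw [← sub_eq_zero, ← map_sub, ← sub_mul]
    exact tau_eq_zero_of_mem H hH (Ideal.mul_mem_right _ _ hpw)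
  have hdeg : e.degree + (two n - e).degree = (two n).degree := by
    rw [← map_add, hadd]
  have h2 : w * monomial (two n - e) 1 ∈ Fl k n ((two n).degree + 1) := by
    have h3 : w ∈ Fl k n (e.degree + 1) := by
      intro m hm
      by_contra h4
      have := hmax m (mem_support_iff.mpr h4)
      omega
    have := mul_mem_Fl h3 (monomial_mem_Fl (k := k) (two n - e) 1)
    rw [← add_assoc, hdeg] at this
    exact this
  rw [h1, tau_eq H hH h2]
  have h4 := coeff_mul_monomial e (two n - e) (1 : k) w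
  rw [hadd, mul_one] at h4
  rw [h4]
  exact he

/-- elements killed by the variables with zero `tau` vanish -/
theorem mem_of_tau_eq_zero (H : Fin n → MvPolynomial (Fin n) k)
    (hH : ∀ i, H i - X i ^ 3 ∈ Fl k n 3) (s : MvPolynomial (Fin n) k)
    (hs : ∀ i, X i * s ∈ Ideal.span (Set.range H)) (hτ : tau H hH s = 0) :
    s ∈ Ideal.span (Set.range H) := by
  classical
  by_contra h
  obtain ⟨z, hz⟩ := exists_tau_mul_ne_zero H hH s h
  apply hz
  induction z using MvPolynomial.induction_on with
  | C a =>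
    rw [mul_comm, C_mul', map_smul, hτ, smul_zero]
  | add p q hp hq =>
    rw [mul_add, map_add]
    have hp' : tau H hH (s * p) = 0 := by
      by_contra h1; exact h1 (hp h1)
    have hq' : tau H hH (s * q) = 0 := by
      by_contra h1; exact h1 (hq h1)
    rw [hp', hq', add_zero]
  | mul_X p i _ =>
    apply tau_eq_zero_of_mem
    have h1 : s * (p * X i) = p * (X i * s) := by ring
    rw [h1]
    exact Ideal.mul_mem_left _ _ (hs i)

end form

end Fermat.Agent.RT.NC
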