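import Fermat.Agent.RT.NC.Cotangent
import Fermat.Agent.RT.ULimPS
import Mathlib.Data.Finsupp.Antidiagonal
import Mathlib.LinearAlgebra.Matrix.Adjugate

/-!
# Linear parts of power series and relations in the cotangent space
-/

set_option autoImplicit false
set_option linter.unusedSectionVars false
set_option linter.style.haveILetI false

open IsLocalRing Module MvPowerSeries

namespace Fermat.Agent.RT.NC

open Fermat.Agent.RT.ULim

section lin

variable {𝒪 : Type*} [CommRing 𝒪] {n : ℕ}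

/-- the linear part -/
noncomputable def lin (g : MvPowerSeries (Fin n) 𝒪) : Fin n → 𝒪 := fun j =>
  coeff (Finsupp.single j 1) g

theorem lin_add (f g : MvPowerSeries (Fin n) 𝒪) : lin (f + g) = lin f + lin g := by
  funext j; simp [lin]

theorem lin_sum {ι : Type*} (s : Finset ι) (f : ι → MvPowerSeries (Fin n) 𝒪) :
    lin (∑ i ∈ s, f i) = ∑ i ∈ s, lin (f i) := by
  funext j; simp [lin, Finset.sum_apply]

theorem lin_mul (f g : MvPowerSeries (Fin n) 𝒪) (j : Fin n) :
    lin (f * g) j = constantCoeff f * lin g j + lin f j * constantCoeff g := by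
  classical
  rw [lin, coeff_mul, Finsupp.antidiagonal_single]
  have h1 : Finset.antidiagonal 1 = {((0 : ℕ), (1 : ℕ)), (1, 0)} := by rfl
  rw [Finset.sum_map, h1, Finset.sum_pair (by simp)]
  simp [lin]

theorem lin_X (i j : Fin n) : lin (X i : MvPowerSeries (Fin n) 𝒪) j = if j = i then 1 else 0 := by
  classical
  rw [lin, coeff_X]
  simp [Finsupp.single_left_inj]

theorem lin_C (a : 𝒪) (j : Fin n) : lin (C a : MvPowerSeries (Fin n) 𝒪) j = 0 := by
  classical
  rw [lin, coeff_C, if_neg]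
  simp

theorem constantCoeff_eq_zero_of_mem {g : MvPowerSeries (Fin n) 𝒪}
    (hg : g ∈ Ideal.span (Set.range (X : Fin n → MvPowerSeries (Fin n) 𝒪))) :
    constantCoeff g = 0 := by
  obtain ⟨c, rfl⟩ := (Ideal.mem_span_range_iff_exists_fun).mp hg
  rw [map_sum]
  refine Finset.sum_eq_zero fun i _ => ?_
  rw [map_mul, constantCoeff_X, mul_zero]

theorem mem_span_X {g : MvPowerSeries (Fin n) 𝒪} (hg : constantCoeff g = 0) :
    g ∈ Ideal.span (Set.range (X : Fin n → MvPowerSeries (Fin n) 𝒪)) := by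
  rw [eq_C_add_sum g, hg, map_zero, zero_add]
  exact Ideal.sum_mem _ fun i _ => Ideal.mul_mem_right _ _ (Ideal.subset_span ⟨i, rfl⟩)

theorem lin_eq_zero_of_mem_sq {g : MvPowerSeries (Fin n) 𝒪}
    (hg : g ∈ Ideal.span (Set.range (X : Fin n → MvPowerSeries (Fin n) 𝒪)) ^ 2) (j : Fin n) :
    lin g j = 0 := by
  rw [sq] at hg
  induction hg using Submodule.mul_induction_on' with
  | mem_mul_mem a ha b hb =>
    rw [lin_mul, constantCoeff_eq_zero_of_mem ha, constantCoeff_eq_zero_of_mem hb]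
    ring
  | add x _ y _ hx hy => rw [lin_add, Pi.add_apply, hx, hy, add_zero]

theorem constantCoeff_xquot (g : MvPowerSeries (Fin n) 𝒪) (j : Fin n) :
    constantCoeff (xquot g j) = lin g j := by
  rw [← coeff_zero_eq_constantCoeff_apply, coeff_xquot, if_pos (by simp), zero_add]
  rfl

theorem sub_lin_mem {g : MvPowerSeries (Fin n) 𝒪} (hg : constantCoeff g = 0) :
    g - ∑ j, C (lin g j) * X j ∈
      Ideal.span (Set.range (X : Fin n → MvPowerSeries (Fin n) 𝒪)) ^ 2 := by
  have h1 : g - ∑ j, C (lin g j) * X j = ∑ j, X j * (xquot g j - C (lin g j)) := by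
    conv_lhs => rw [eq_C_add_sum g, hg, map_zero, zero_add]
    rw [← Finset.sum_sub_distrib]
    refine Finset.sum_congr rfl fun j _ => ?_
    have h2 : lin (∑ i, X i * xquot g i) j = lin g j := by
      conv_rhs => rw [eq_C_add_sum g, hg, map_zero, zero_add]
    rw [h2]
    ring
  rw [h1]
  refine Ideal.sum_mem _ fun j _ => ?_
  rw [sq]
  refine Ideal.mul_mem_mul (Ideal.subset_span ⟨j, rfl⟩) (mem_span_X ?_)
  rw [map_sub, constantCoeff_xquot, constantCoeff_C, sub_self]

theorem lin_linear_comb (u : Fin n → 𝒪) :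
    lin (∑ j, C (u j) * X j : MvPowerSeries (Fin n) 𝒪) = u := by
  funext j
  rw [lin_sum, Finset.sum_apply, Finset.sum_eq_single j]
  · rw [lin_mul, lin_X, if_pos rfl, constantCoeff_C, lin_C]; ring
  · intro i _ hi
    rw [lin_mul, lin_X, if_neg (Ne.symm hi), lin_C]; ring
  · intro h; exact absurd (Finset.mem_univ _) h

end lin

section relations

variable {𝒪 B : Type*} [CommRing 𝒪] [CommRing B] [Algebra 𝒪 B] {n : ℕ}
  (ψ : MvPowerSeries (Fin n) 𝒪 →ₐ[𝒪] B) (θ : B →ₐ[𝒪] 𝒪)

theorem aug_comp (h0 : ∀ i, θ (ψ (X i)) = 0) (g : MvPowerSeries (Fin n) 𝒪) :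
    θ (ψ g) = constantCoeff g := by
  conv_lhs => rw [eq_C_add_sum g]
  have h1 : (C (constantCoeff g) : MvPowerSeries (Fin n) 𝒪) =
      algebraMap 𝒪 (MvPowerSeries (Fin n) 𝒪) (constantCoeff g) := rfl
  rw [map_add, map_add, h1, AlgHom.commutes, AlgHom.commutes, map_sum, map_sum,
    Finset.sum_eq_zero, add_zero]
  · rfl
  · intro i _
    rw [map_mul, map_mul, h0, zero_mul]

theorem ker_aug (hψ : Function.Surjective ψ) (h0 : ∀ i, θ (ψ (X i)) = 0) :
    RingHom.ker θ = Ideal.span (Set.range fun i => ψ (X i)) := by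
  apply le_antisymm
  · intro b hb
    obtain ⟨g, rfl⟩ := hψ b
    rw [RingHom.mem_ker, aug_comp ψ θ h0] at hb
    have h1 := Ideal.mem_map_of_mem (ψ : MvPowerSeries (Fin n) 𝒪 →+* B) (mem_span_X hb)
    rw [Ideal.map_span, ← Set.range_comp] at h1
    exact h1
  · rw [Ideal.span_le]
    rintro _ ⟨i, rfl⟩
    exact h0 i

/-- relations in the cotangent space are linear parts of elements of the kernel -/
theorem sum_mem_sq_iff (hψ : Function.Surjective ψ) (h0 : ∀ i, θ (ψ (X i)) = 0)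
    (u : Fin n → 𝒪) :
    ∑ i, u i • ψ (X i) ∈ RingHom.ker θ ^ 2 ↔ ∃ g ∈ RingHom.ker ψ, lin g = u := by
  have h2 : RingHom.ker θ ^ 2 = (Ideal.span (Set.range
      (X : Fin n → MvPowerSeries (Fin n) 𝒪)) ^ 2).map
        (ψ : MvPowerSeries (Fin n) 𝒪 →+* B) := by
    rw [ker_aug ψ θ hψ h0, Ideal.map_pow, Ideal.map_span, ← Set.range_comp]
    rfl
  have h3 : ∀ u : Fin n → 𝒪, ψ (∑ j, C (u j) * X j : MvPowerSeries (Fin n) 𝒪) =
      ∑ i, u i • ψ (X i) := by
    intro u
    rw [map_sum]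
    refine Finset.sum_congr rfl fun i _ => ?_
    rw [map_mul, Algebra.smul_def]
    congr 1
    exact ψ.commutes _
  constructor
  · intro h
    rw [h2, Ideal.mem_map_iff_of_surjective (ψ : MvPowerSeries (Fin n) 𝒪 →+* B) hψ] at h
    obtain ⟨q, hq, hqu⟩ := h
    rw [RingHom.coe_coe] at hqu
    refine ⟨(∑ j, C (u j) * X j) - q, ?_, ?_⟩
    · rw [RingHom.mem_ker, map_sub, h3, sub_eq_zero]
      exact hqu.symm
    · funext j
      have h4 := congrFun (lin_linear_comb u) j
      have h5 : lin ((∑ j, C (u j) * X j) - q) j + lin q j = lin (∑ j, C (u j) * X j) j := by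
        rw [← Pi.add_apply, ← lin_add, sub_add_cancel]
      rw [lin_eq_zero_of_mem_sq hq, add_zero, h4] at h5
      exact h5
  · rintro ⟨g, hg, rfl⟩
    have hg0 : constantCoeff g = 0 := by
      rw [← aug_comp ψ θ h0, (RingHom.mem_ker).mp hg, map_zero]
    have h4 := Ideal.mem_map_of_mem (ψ : MvPowerSeries (Fin n) 𝒪 →+* B) (sub_lin_mem hg0)
    rw [← h2, RingHom.coe_coe, map_sub, h3, (RingHom.mem_ker).mp hg, zero_sub] at h4
    exact (neg_mem_iff.mp h4)

/-- the matrix of linear parts -/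
noncomputable def linMat (h : Fin n → MvPowerSeries (Fin n) 𝒪) : Matrix (Fin n) (Fin n) 𝒪 :=
  fun i => lin (h i)

theorem lin_mem_span (h : Fin n → MvPowerSeries (Fin n) 𝒪)
    (h0 : ∀ i, constantCoeff (h i) = 0) (u : Fin n → 𝒪) :
    (∃ g ∈ Ideal.span (Set.range h), lin g = u) ↔ ∃ v, Matrix.vecMul v (linMat h) = u := by
  constructor
  · rintro ⟨g, hg, rfl⟩
    obtain ⟨c, rfl⟩ := (Ideal.mem_span_range_iff_exists_fun).mp hg
    refine ⟨fun i => constantCoeff (c i), ?_⟩
    funext j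
    rw [lin_sum, Finset.sum_apply, Matrix.vecMul, dotProduct]
    refine Finset.sum_congr rfl fun i _ => ?_
    rw [lin_mul, h0 i, mul_zero, add_zero]
    rfl
  · rintro ⟨v, rfl⟩
    refine ⟨∑ i, C (v i) * h i, Ideal.sum_mem _ fun i _ => Ideal.mul_mem_left _ _
      (Ideal.subset_span ⟨i, rfl⟩), ?_⟩
    funext j
    rw [lin_sum, Finset.sum_apply, Matrix.vecMul, dotProduct]
    refine Finset.sum_congr rfl fun i _ => ?_
    rw [lin_mul, h0 i, mul_zero, add_zero, constantCoeff_C]
    rfl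

end relations

section det

theorem mul_det_mem {A : Type*} [CommRing A] {n : ℕ} (a : Matrix (Fin n) (Fin n) A)
    (x : Fin n → A) (j : Fin n) : x j * a.det ∈ Ideal.span (Set.range (a.mulVec x)) := by
  classical
  have h1 : (a.adjugate.mulVec (a.mulVec x)) j = x j * a.det := by
    rw [Matrix.mulVec_mulVec, Matrix.adjugate_mul, Matrix.smul_mulVec, Matrix.one_mulVec,
      Pi.smul_apply, smul_eq_mul, mul_comm]
  rw [← h1, Matrix.mulVec, dotProduct]
  exact Ideal.sum_mem _ fun i _ => Ideal.mul_mem_left _ _ (Ideal.subset_span ⟨i, rfl⟩)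

/-- the canonical matrix with `a X = h` -/
noncomputable def quotMat {𝒪 : Type*} [CommRing 𝒪] {n : ℕ}
    (h : Fin n → MvPowerSeries (Fin n) 𝒪) : Matrix (Fin n) (Fin n) (MvPowerSeries (Fin n) 𝒪) :=
  fun i j => xquot (h i) j

theorem quotMat_mulVec {𝒪 : Type*} [CommRing 𝒪] {n : ℕ}
    (h : Fin n → MvPowerSeries (Fin n) 𝒪) (h0 : ∀ i, constantCoeff (h i) = 0) :
    (quotMat h).mulVec (fun i => X i) = h := by
  funext i
  conv_rhs => rw [eq_C_add_sum (h i), h0 i, map_zero, zero_add]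
  rw [Matrix.mulVec, dotProduct]
  refine Finset.sum_congr rfl fun j _ => ?_
  rw [mul_comm]
  rfl

theorem constantCoeff_det_quotMat {𝒪 : Type*} [CommRing 𝒪] {n : ℕ}
    (h : Fin n → MvPowerSeries (Fin n) 𝒪) :
    constantCoeff (quotMat h).det = (linMat h).det := by
  rw [RingHom.map_det]
  congr 1
  ext i j
  exact constantCoeff_xquot (h i) j

end det

end Fermat.Agent.RT.NC
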