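import Fermat.Agent.RT.NC.Criterion

/-!
# Congruence modules from pairings

`dvd_of_pairing` : for Hecke modules `M, M'` with a Hecke-equivariant pairing, `⟨e, e'⟩` divides
the congruence ideal of `T`.
`ord_pairing_eq` : equality when `T` is a complete intersection and `M` is free of rank one.
`numerical_criterion_pairing` : the numerical criterion in terms of pairings.
-/

set_option autoImplicit false
set_option linter.unusedSectionVars false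
set_option linter.style.haveILetI false

open IsLocalRing Module

namespace Fermat.Agent.RT.NC

section primitive

variable {𝒪 : Type*} [CommRing 𝒪] [IsLocalRing 𝒪]

/-- a primitive vector of a free module over a local ring takes the value one under some
functional -/
theorem exists_functional_eq_one {M : Type*} [AddCommGroup M] [Module 𝒪 M] [Module.Free 𝒪 M]
    [Module.Finite 𝒪 M] (e : M) (he : e ∉ maximalIdeal 𝒪 • (⊤ : Submodule 𝒪 M)) :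
    ∃ f : M →ₗ[𝒪] 𝒪, f e = 1 := by
  classical
  let b := Module.Free.chooseBasis 𝒪 M
  have h1 : ∃ i, b.repr e i ∉ maximalIdeal 𝒪 := by
    by_contra h
    push Not at h
    apply he
    rw [← b.sum_repr e]
    exact Submodule.sum_mem _ fun i _ => Submodule.smul_mem_smul (h i) trivial
  obtain ⟨i, hi⟩ := h1
  rw [IsLocalRing.mem_maximalIdeal, mem_nonunits_iff, not_not] at hi
  obtain ⟨u, hu⟩ := hi
  refine ⟨((u⁻¹ : 𝒪ˣ) : 𝒪) • b.coord i, ?_⟩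
  rw [LinearMap.smul_apply, Basis.coord_apply, ← hu, smul_eq_mul, Units.inv_mul]

end primitive

section pairing

variable {𝒪 : Type*} [CommRing 𝒪] [IsDomain 𝒪] [IsDiscreteValuationRing 𝒪]
  {T : Type*} [CommRing T] [Algebra 𝒪 T]
  {M : Type*} [AddCommGroup M] [Module 𝒪 M] [Module T M] [IsScalarTower 𝒪 T M]
  {M' : Type*} [AddCommGroup M'] [Module 𝒪 M'] [Module T M'] [IsScalarTower 𝒪 T M']

/-- the generator of the `θ`-eigenspace is primitive -/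
theorem generator_notMem (θ : T →ₐ[𝒪] 𝒪) (e : M) (he0 : e ≠ 0) [Module.IsTorsionFree 𝒪 M]
    (he : ∀ x ∈ RingHom.ker θ, x • e = 0)
    (hgen : ∀ m : M, (∀ x ∈ RingHom.ker θ, x • m = 0) → ∃ b : 𝒪, m = b • e) :
    e ∉ maximalIdeal 𝒪 • (⊤ : Submodule 𝒪 M) := by
  obtain ⟨ϖ, hϖ⟩ := IsDiscreteValuationRing.exists_irreducible 𝒪
  intro hmem
  rw [hϖ.maximalIdeal_eq, Submodule.ideal_span_singleton_smul] at hmem
  obtain ⟨m, -, hm⟩ := hmem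
  have hm' : ϖ • m = e := hm
  obtain ⟨b, hb⟩ := hgen m (by
    intro x hx
    have h1 := he x hx
    rw [← hm', smul_comm] at h1
    exact (smul_eq_zero.mp h1).resolve_left hϖ.ne_zero)
  rw [hb, smul_smul] at hm'
  have h2 : (1 - ϖ * b) • e = 0 := by rw [sub_smul, hm', one_smul, sub_self]
  rcases smul_eq_zero.mp h2 with h3 | h3
  · apply hϖ.not_isUnit
    exact IsUnit.of_mul_eq_one b (by linear_combination -h3)
  · exact he0 h3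

theorem smul_eq_aug_smul (θ : T →ₐ[𝒪] 𝒪) (e : M) (he : ∀ x ∈ RingHom.ker θ, x • e = 0) (t : T) :
    t • e = θ t • e := by
  have h1 := he _ (sub_mem_ker θ t)
  rw [sub_smul, sub_eq_zero, algebraMap_smul] at h1
  exact h1

/-- the value of the pairing divides the congruence ideal -/
theorem dvd_of_pairing (θ : T →ₐ[𝒪] 𝒪) (B : M →ₗ[𝒪] M' →ₗ[𝒪] 𝒪)
    (hB : ∀ (t : T) (m : M) (m' : M'), B (t • m) m' = B m (t • m'))
    (e : M) (hgen : ∀ m : M, (∀ x ∈ RingHom.ker θ, x • m = 0) → ∃ b : 𝒪, m = b • e)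
    (e' : M') (he' : ∀ x ∈ RingHom.ker θ, x • e' = 0) (hprim : ∃ m, B m e' = 1)
    (t : T) (ht : ∀ x ∈ RingHom.ker θ, t * x = 0) : B e e' ∣ θ t := by
  obtain ⟨m, hm⟩ := hprim
  obtain ⟨b, hb⟩ := hgen (t • m) (by
    intro x hx
    rw [smul_smul, mul_comm, ht x hx, zero_smul])
  have h1 : B (t • m) e' = θ t := by
    rw [hB, smul_eq_aug_smul θ e' he', map_smul, hm, smul_eq_mul, mul_one]
  rw [hb, map_smul, LinearMap.smul_apply, smul_eq_mul] at h1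
  exact ⟨b, by rw [← h1, mul_comm]⟩

/-- primitivity from perfectness on one side -/
theorem exists_pairing_eq_one [Module.Free 𝒪 M'] [Module.Finite 𝒪 M']
    (B : M →ₗ[𝒪] M' →ₗ[𝒪] 𝒪) (hperf : Function.Surjective B) (e' : M')
    (he' : e' ∉ maximalIdeal 𝒪 • (⊤ : Submodule 𝒪 M')) : ∃ m, B m e' = 1 := by
  obtain ⟨f, hf⟩ := exists_functional_eq_one e' he'
  obtain ⟨m, rfl⟩ := hperf f
  exact ⟨m, hf⟩

/-- equality for complete intersections and free modules of rank one -/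
theorem ord_pairing_eq [IsAdicComplete (maximalIdeal 𝒪) 𝒪] [Module.Finite 𝒪 T]
    [Module.Free 𝒪 T] (hCI : IsCI 𝒪 T) (θ : T →ₐ[𝒪] 𝒪) (B : M →ₗ[𝒪] M' →ₗ[𝒪] 𝒪)
    (hB : ∀ (t : T) (m : M) (m' : M'), B (t • m) m' = B m (t • m'))
    (m₀ : M) (hm₀ : ∀ m : M, ∃ t : T, m = t • m₀) (hm₀' : ∀ t : T, t • m₀ = 0 → t = 0)
    (e : M) (he : ∀ x ∈ RingHom.ker θ, x • e = 0)
    (hgen : ∀ m : M, (∀ x ∈ RingHom.ker θ, x • m = 0) → ∃ b : 𝒪, m = b • e)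
    (e' : M') (he' : ∀ x ∈ RingHom.ker θ, x • e' = 0) (hprim : ∃ m, B m e' = 1)
    (hne : B e e' ≠ 0) :
    Module.length 𝒪 (RingHom.ker θ).Cotangent = Ring.ord 𝒪 (B e e') := by
  classical
  -- an element of the annihilator with nonzero image
  obtain ⟨t, ht⟩ := hm₀ e
  have htann : ∀ x ∈ RingHom.ker θ, t * x = 0 := by
    intro x hx
    apply hm₀'
    rw [mul_comm, mul_smul, ← ht]
    exact he x hx
  have hBe : B e e' = θ t * B m₀ e' := by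
    rw [ht, hB, smul_eq_aug_smul θ e' he', map_smul, smul_eq_mul]
  have ht0 : θ t ≠ 0 := by
    intro h
    rw [h, zero_mul] at hBe
    exact hne hBe
  obtain ⟨c, hc, hc0, -, hcgen, hlen⟩ := hCI.exists_generator' θ t htann ht0
  rw [hlen]
  have h1 : B e e' ∣ θ c := dvd_of_pairing θ B hB e hgen e' he' hprim c hc
  have h2 : θ c ∣ B e e' := by
    obtain ⟨b, hb⟩ := hcgen t htann
    rw [hBe, hb, map_smul, smul_eq_mul]
    exact Dvd.intro_left _ (by ring : b * B m₀ e' * θ c = b * θ c * B m₀ e')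
  exact le_antisymm (Ring.ord_le_ord_of_dvd h2) (Ring.ord_le_ord_of_dvd h1)

/-- **Numerical criterion with pairings**. -/
theorem numerical_criterion_pairing [IsAdicComplete (maximalIdeal 𝒪) 𝒪]
    {R : Type*} [CommRing R] [IsLocalRing R] [IsNoetherianRing R]
    [IsAdicComplete (maximalIdeal R) R] [Algebra 𝒪 R] [Module.Finite 𝒪 T] [Module.Free 𝒪 T]
    (φ : R →ₐ[𝒪] T) (hφ : Function.Surjective φ) (θ : T →ₐ[𝒪] 𝒪)
    (B : M →ₗ[𝒪] M' →ₗ[𝒪] 𝒪)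
    (hB : ∀ (t : T) (m : M) (m' : M'), B (t • m) m' = B m (t • m'))
    (e : M) (hgen : ∀ m : M, (∀ x ∈ RingHom.ker θ, x • m = 0) → ∃ b : 𝒪, m = b • e)
    (e' : M') (he' : ∀ x ∈ RingHom.ker θ, x • e' = 0) (hprim : ∃ m, B m e' = 1)
    (hne : B e e' ≠ 0)
    (hΦ : Module.length 𝒪 (RingHom.ker (θ.comp φ)).Cotangent ≤ Ring.ord 𝒪 (B e e')) :
    Function.Bijective φ ∧ IsCI 𝒪 T :=
  numerical_criterion φ hφ θ (B e e') hne
    (fun t ht => dvd_of_pairing θ B hB e hgen e' he' hprim t ht) hΦ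

end pairing

section degeneracy

variable {𝒪 : Type*} [CommRing 𝒪] [IsDomain 𝒪] [IsDiscreteValuationRing 𝒪]
  {T₁ T₂ : Type*} [CommRing T₁] [Algebra 𝒪 T₁] [CommRing T₂] [Algebra 𝒪 T₂]
  {M₁ : Type*} [AddCommGroup M₁] [Module 𝒪 M₁] [Module T₁ M₁] [IsScalarTower 𝒪 T₁ M₁]
  {M₂ : Type*} [AddCommGroup M₂] [Module 𝒪 M₂] [Module T₂ M₂] [IsScalarTower 𝒪 T₂ M₂]

/-- degeneracy maps which are injective modulo the maximal ideal preserve generators of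
eigenspaces -/
theorem exists_unit_smul_eq (θ₂ : T₂ →ₐ[𝒪] 𝒪) (i : M₁ →ₗ[𝒪] M₂) (e₁ : M₁)
    (he₁ : e₁ ∉ maximalIdeal 𝒪 • (⊤ : Submodule 𝒪 M₁))
    (hi : ∀ m : M₁, i m ∈ maximalIdeal 𝒪 • (⊤ : Submodule 𝒪 M₂) →
      m ∈ maximalIdeal 𝒪 • (⊤ : Submodule 𝒪 M₁))
    (hie : ∀ x ∈ RingHom.ker θ₂, x • i e₁ = 0) (e₂ : M₂)
    (hgen : ∀ m : M₂, (∀ x ∈ RingHom.ker θ₂, x • m = 0) → ∃ b : 𝒪, m = b • e₂) :
    ∃ u : 𝒪ˣ, i e₁ = (u : 𝒪) • e₂ := by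
  obtain ⟨b, hb⟩ := hgen _ hie
  have hbu : IsUnit b := by
    by_contra h
    apply he₁
    apply hi
    rw [hb]
    exact Submodule.smul_mem_smul ((IsLocalRing.mem_maximalIdeal _).mpr h) trivial
  obtain ⟨u, rfl⟩ := hbu
  exact ⟨u, hb⟩

/-- comparison of pairings under degeneracy maps -/
theorem ord_pairing_degeneracy {M₁' M₂' : Type*} [AddCommGroup M₁'] [Module 𝒪 M₁']
    [AddCommGroup M₂'] [Module 𝒪 M₂']
    (B₁ : M₁ →ₗ[𝒪] M₁' →ₗ[𝒪] 𝒪) (B₂ : M₂ →ₗ[𝒪] M₂' →ₗ[𝒪] 𝒪)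
    (i : M₁ →ₗ[𝒪] M₂) (i' : M₁' →ₗ[𝒪] M₂') (e₁ : M₁) (e₁' : M₁') (e₂ : M₂) (e₂' : M₂')
    (c : 𝒪) (u u' : 𝒪ˣ) (hu : i e₁ = (u : 𝒪) • e₂) (hu' : i' e₁' = (u' : 𝒪) • e₂')
    (hc : B₂ (i e₁) (i' e₁') = c * B₁ e₁ e₁') :
    Ring.ord 𝒪 (B₂ e₂ e₂') = Ring.ord 𝒪 (c * B₁ e₁ e₁') := by
  have h1 : B₂ ((u : 𝒪) • e₂) ((u' : 𝒪) • e₂') = (u : 𝒪) * ((u' : 𝒪) * B₂ e₂ e₂') := by
    rw [map_smul, map_smul, LinearMap.smul_apply, smul_eq_mul, smul_eq_mul]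
    ring
  rw [← hc, hu, hu', h1, Ring.ord_mul_of_isUnit_left u.isUnit,
    Ring.ord_mul_of_isUnit_left u'.isUnit]

/-- **Induction step of Wiles' level raising argument.** If `length Φ_{R₁} ≤ ord ⟨e₁, e₁'⟩` and
`length Φ_{R₂} ≤ length Φ_{R₁} + ord c`, then `length Φ_{R₂} ≤ ord ⟨e₂, e₂'⟩`. -/
theorem level_step {M₁' M₂' : Type*} [AddCommGroup M₁'] [Module 𝒪 M₁']
    [AddCommGroup M₂'] [Module 𝒪 M₂']
    (B₁ : M₁ →ₗ[𝒪] M₁' →ₗ[𝒪] 𝒪) (B₂ : M₂ →ₗ[𝒪] M₂' →ₗ[𝒪] 𝒪)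
    (i : M₁ →ₗ[𝒪] M₂) (i' : M₁' →ₗ[𝒪] M₂') (e₁ : M₁) (e₁' : M₁') (e₂ : M₂) (e₂' : M₂')
    (c : 𝒪) (u u' : 𝒪ˣ) (hu : i e₁ = (u : 𝒪) • e₂) (hu' : i' e₁' = (u' : 𝒪) • e₂')
    (hc : B₂ (i e₁) (i' e₁') = c * B₁ e₁ e₁') (hne : B₁ e₁ e₁' ≠ 0)
    (Φ₁ Φ₂ : ℕ∞) (h₁ : Φ₁ ≤ Ring.ord 𝒪 (B₁ e₁ e₁')) (h₂ : Φ₂ ≤ Φ₁ + Ring.ord 𝒪 c) :
    Φ₂ ≤ Ring.ord 𝒪 (B₂ e₂ e₂') := by
  rw [ord_pairing_degeneracy B₁ B₂ i i' e₁ e₁' e₂ e₂' c u u' hu hu' hc,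
    Ring.ord_mul _ (mem_nonZeroDivisors_of_ne_zero hne), add_comm]
  exact h₂.trans (add_le_add_left h₁ _)

end degeneracy

end Fermat.Agent.RT.NC
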