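import Fermat.Agent.RT.NC.Frob
import Mathlib.RingTheory.Artinian.Module
import Mathlib.RingTheory.Artinian.Ring
import Mathlib.RingTheory.Idempotents
import Mathlib.RingTheory.HopkinsLevitzki
import Mathlib.RingTheory.Ideal.IdempotentFG
import Mathlib.RingTheory.Ideal.Quotient.Operations
import Mathlib.Order.Interval.Finset.Nat
import Mathlib.Data.Finsupp.Interval

/-!
# Ideals missing the socle generator
-/

set_option autoImplicit false
set_option linter.unusedSectionVars false
set_option linter.style.haveILetI false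

namespace Fermat.Agent.RT.NC

open MvPolynomial

/-- If an ideal `K` of an Artinian ring contains no nonzero element killed by `m`, then it is
contained in all powers of `m`. -/
theorem le_pow_of_socle {Q : Type*} [CommRing Q] [IsArtinianRing Q] (m K : Ideal Q)
    (h : ∀ s ∈ K, (∀ x ∈ m, x * s = 0) → s = 0) (M : ℕ) : K ≤ m ^ M := by
  classical
  -- the powers stabilise
  obtain ⟨N, hN⟩ := IsArtinian.monotone_stabilizes (R := Q) (M := Q)
    ⟨fun j => OrderDual.toDual (m ^ j), fun a b hab => Ideal.pow_le_pow_right hab⟩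
  have hN' : ∀ j, N ≤ j → m ^ N = m ^ j := fun j hj => hN j hj
  have hid : IsIdempotentElem (m ^ N) := by
    rw [IsIdempotentElem, ← pow_add]
    exact (hN' (N + N) (by omega)).symm
  obtain ⟨e, he, hme⟩ := (Ideal.isIdempotentElem_iff_of_fg (m ^ N)
    (IsNoetherian.noetherian (m ^ N))).mp hid
  -- elements of `K` killed by a power of `m` vanish
  have hkill : ∀ r : ℕ, ∀ s ∈ K, (∀ x ∈ m ^ r, x * s = 0) → s = 0 := by
    intro r
    induction r with
    | zero =>
      intro s _ hs
      have := hs 1 (by simp)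
      rwa [one_mul] at this
    | succ r ih =>
      intro s hs hs'
      apply h s hs
      intro x hx
      apply ih _ (K.mul_mem_left x hs)
      intro y hy
      have h1 := hs' (y * x) (by rw [pow_succ]; exact Ideal.mul_mem_mul hy hx)
      rw [← h1]; ring
  have hK : K ≤ m ^ N := by
    intro y hy
    have h1 : (1 - e) * y = 0 := by
      apply hkill N _ (K.mul_mem_left _ hy)
      intro x hx
      rw [hme, Ideal.submodule_span_eq, Ideal.mem_span_singleton'] at hx
      obtain ⟨a, rfl⟩ := hx
      have h2 : a * e * ((1 - e) * y) = a * y * (e - e * e) := by ring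
      rw [h2, he.eq, sub_self, mul_zero]
    have h2 : y = y * e := by linear_combination h1
    rw [hme, Ideal.submodule_span_eq, Ideal.mem_span_singleton']
    exact ⟨y, h2.symm⟩
  rcases le_total N M with hNM | hNM
  · rw [← hN' M hNM]; exact hK
  · exact hK.trans (Ideal.pow_le_pow_right hNM)

section field

variable {k : Type*} [Field k] {n : ℕ}

theorem finite_quotient (H : Fin n → MvPolynomial (Fin n) k)
    (hH : ∀ i, H i - X i ^ 3 ∈ Fl k n 3) :
    Module.Finite k (MvPolynomial (Fin n) k ⧸ Ideal.span (Set.range H)) := by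
  classical
  set I := Ideal.span (Set.range H) with hI
  have hfin : {m : Fin n →₀ ℕ | ∀ i, m i < 3}.Finite := by
    refine Set.Finite.subset (Set.finite_Iic (two n)) ?_
    intro m hm i
    have := hm i
    rw [two_apply]
    omega
  refine ⟨⟨hfin.toFinset.image fun m => Ideal.Quotient.mk I (monomial m 1), ?_⟩⟩
  rw [eq_top_iff]
  rintro y -
  obtain ⟨p, rfl⟩ := Ideal.Quotient.mk_surjective y
  obtain ⟨w, hw, hpw⟩ := exists_normal_form H hH p
  have h1 : Ideal.Quotient.mk I p = Ideal.Quotient.mk I w := by
    rw [Ideal.Quotient.eq]; exact hpw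
  rw [h1, w.as_sum, map_sum]
  refine Submodule.sum_mem _ fun m hm => ?_
  have h2 : monomial m (coeff m w) = coeff m w • monomial m (1 : k) := by
    rw [smul_monomial, smul_eq_mul, mul_one]
  have h3 : Ideal.Quotient.mk I (coeff m w • monomial m (1 : k)) =
      coeff m w • Ideal.Quotient.mk I (monomial m (1 : k)) := rfl
  rw [h2, h3]
  refine Submodule.smul_mem _ _ (Submodule.subset_span ?_)
  rw [Finset.coe_image]
  refine ⟨m, ?_, rfl⟩
  rw [Set.Finite.coe_toFinset]
  exact hw m (mem_support_iff.mp hm)

/-- An ideal containing `(H)` but not a given socle element is contained in `(H) + (X) ^ M`. -/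
theorem le_sup_pow (H : Fin n → MvPolynomial (Fin n) k)
    (hH : ∀ i, H i - X i ^ 3 ∈ Fl k n 3) (K : Ideal (MvPolynomial (Fin n) k))
    (hK : Ideal.span (Set.range H) ≤ K) (c : MvPolynomial (Fin n) k)
    (hc : ∀ i, X i * c ∈ Ideal.span (Set.range H)) (hcK : c ∉ K) (M : ℕ) :
    K ≤ Ideal.span (Set.range H) ⊔
      Ideal.span (Set.range (X : Fin n → MvPolynomial (Fin n) k)) ^ M := by
  classical
  set I := Ideal.span (Set.range H) with hI
  set 𝔵 := Ideal.span (Set.range (X : Fin n → MvPolynomial (Fin n) k)) with h𝔵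
  haveI : Module.Finite k (MvPolynomial (Fin n) k ⧸ I) := finite_quotient H hH
  haveI : IsArtinianRing (MvPolynomial (Fin n) k ⧸ I) := IsArtinianRing.of_finite k _
  have hsurj : Function.Surjective (Ideal.Quotient.mk I) := Ideal.Quotient.mk_surjective
  have hτc : tau H hH c ≠ 0 := by
    intro h
    exact hcK (hK (mem_of_tau_eq_zero H hH c hc h))
  have key := le_pow_of_socle (𝔵.map (Ideal.Quotient.mk I)) (K.map (Ideal.Quotient.mk I)) (by
    intro s hs hs'
    rw [Ideal.mem_map_iff_of_surjective _ hsurj] at hs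
    obtain ⟨s, hsK, rfl⟩ := hs
    have hX : ∀ i, X i * s ∈ I := by
      intro i
      have := hs' (Ideal.Quotient.mk I (X i)) (Ideal.mem_map_of_mem _
        (Ideal.subset_span ⟨i, rfl⟩))
      rw [← map_mul, Ideal.Quotient.eq_zero_iff_mem] at this
      exact this
    rw [Ideal.Quotient.eq_zero_iff_mem]
    apply mem_of_tau_eq_zero H hH s hX
    by_contra hτ
    apply hcK
    -- `w = τ(c) s - τ(s) c`
    have h1 : C (tau H hH c) * s - C (tau H hH s) * c ∈ I := by
      apply mem_of_tau_eq_zero H hH
      · intro i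
        have h2 : X i * (C (tau H hH c) * s - C (tau H hH s) * c) =
            C (tau H hH c) * (X i * s) - C (tau H hH s) * (X i * c) := by ring
        rw [h2]
        exact sub_mem (Ideal.mul_mem_left _ _ (hX i)) (Ideal.mul_mem_left _ _ (hc i))
      · rw [map_sub, C_mul', C_mul', map_smul, map_smul, smul_eq_mul, smul_eq_mul]
        ring
    have h2 : C (tau H hH s) * c ∈ K := by
      have h3 := sub_mem (K.mul_mem_left (C (tau H hH c)) hsK) (hK h1)
      rwa [sub_sub_cancel] at h3
    have h3 := K.mul_mem_left (C (tau H hH s)⁻¹) h2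
    rw [← mul_assoc, ← C_mul, inv_mul_cancel₀ hτ, C_1, one_mul] at h3
    exact h3) M
  intro y hy
  have h1 := key (Ideal.mem_map_of_mem _ hy)
  rw [← Ideal.map_pow, Ideal.mem_map_iff_of_surjective _ hsurj] at h1
  obtain ⟨z, hz, hzy⟩ := h1
  rw [Ideal.Quotient.eq] at hzy
  have h2 : y = -(z - y) + z := by ring
  rw [h2]
  exact add_mem (Ideal.mem_sup_left (neg_mem hzy)) (Ideal.mem_sup_right hz)

end field

end Fermat.Agent.RT.NC
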