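import Fermat.Agent.RT.ULimPS
import Mathlib.LinearAlgebra.Matrix.Adjugate
import Mathlib.LinearAlgebra.Matrix.Determinant.Basic

/-!
# Determinants and regular sequences

Wiles' numerical criterion, elementary part: if `f = a X` generates an ideal of finite colength in
`k⟦X₁,…,X_n⟧` then `det a ∉ (f)`.
-/

set_option autoImplicit false
set_option linter.unusedSectionVars false

namespace Fermat.Agent.RT.NC

open Matrix

section indep

variable {A : Type*} [CommRing A] {n : ℕ}

/-- Koszul vector `x_k e_j - x_j e_k` -/
def koszulVec (x : Fin n → A) (k j : Fin n) : Fin n → A :=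
  x k • Pi.single j 1 - x j • Pi.single k 1

/-- the module of Koszul syzygies -/
def koszulSyz (x : Fin n → A) : Submodule A (Fin n → A) :=
  Submodule.span A {v | ∃ k j, v = koszulVec x k j}

/-- all syzygies are Koszul -/
def KosExact (x : Fin n → A) : Prop := ∀ ε : Fin n → A, ∑ j, ε j * x j = 0 → ε ∈ koszulSyz x

/-- a (weakly) regular sequence -/
def SeqReg (x : Fin n → A) : Prop := ∀ m : Fin n, ∀ f : A,
  f * x m ∈ Ideal.span (x '' {k | k < m}) → f ∈ Ideal.span (x '' {k | k < m})

theorem kosExact_of_seqReg {x : Fin n → A} (hx : SeqReg x) : KosExact x := by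
  classical
  have key : ∀ m : ℕ, ∀ ε : Fin n → A, (∀ j : Fin n, m ≤ j.val → ε j = 0) →
      ∑ j, ε j * x j = 0 → ε ∈ koszulSyz x := by
    intro m
    induction m with
    | zero =>
      intro ε h _
      have : ε = 0 := by funext j; exact h j (Nat.zero_le _)
      rw [this]; exact zero_mem _
    | succ m ih =>
      intro ε h hsum
      by_cases hm : m < n
      · set i : Fin n := ⟨m, hm⟩ with hi
        have h1 : ε i * x i ∈ Ideal.span (x '' {k | k < i}) := by
          have h2 : ε i * x i = - ∑ j ∈ Finset.univ.erase i, ε j * x j := by
            rw [← Finset.add_sum_erase _ _ (Finset.mem_univ i)] at hsum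
            linear_combination hsum
          rw [h2]
          refine neg_mem (Ideal.sum_mem _ fun j hj => ?_)
          have hji : j ≠ i := Finset.ne_of_mem_erase hj
          by_cases hlt : j < i
          · exact Ideal.mul_mem_left _ _ (Ideal.subset_span ⟨j, hlt, rfl⟩)
          · have : m + 1 ≤ j.val := by
              have h3 : ¬ j.val < m := hlt
              have h4 : j.val ≠ m := fun h => hji (Fin.ext h)
              omega
            rw [h j this, zero_mul]
            exact zero_mem _
        have h2 := hx i _ h1
        -- write `ε i` as a combination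
        have h3 : ∀ y ∈ Ideal.span (x '' {k | k < i}),
            ∃ c : Fin n → A, (∀ k, ¬ k < i → c k = 0) ∧ y = ∑ k, c k * x k := by
          intro y hy
          induction hy using Submodule.span_induction with
          | mem y hy =>
            obtain ⟨k, hk, rfl⟩ := hy
            refine ⟨Pi.single k 1, fun l hl => ?_, ?_⟩
            · have : l ≠ k := by rintro rfl; exact hl hk
              rw [Pi.single_eq_of_ne this]
            · simp [Pi.single_apply]
          | zero => exact ⟨0, fun _ _ => rfl, by simp⟩
          | add y z _ _ hy hz =>
            obtain ⟨c, hc, rfl⟩ := hy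
            obtain ⟨c', hc', rfl⟩ := hz
            refine ⟨c + c', fun k hk => by simp [hc k hk, hc' k hk], ?_⟩
            simp [add_mul, Finset.sum_add_distrib]
          | smul a y _ hy =>
            obtain ⟨c, hc, rfl⟩ := hy
            refine ⟨a • c, fun k hk => by simp [hc k hk], ?_⟩
            simp [mul_assoc, Finset.mul_sum]
        obtain ⟨c, hc, hci⟩ := h3 _ h2
        set ε' : Fin n → A := ε - ∑ k, c k • koszulVec x k i with hε'
        have hkos : ∑ k, c k • koszulVec x k i ∈ koszulSyz x :=
          Submodule.sum_mem _ fun k _ => Submodule.smul_mem _ _ (Submodule.subset_span ⟨k, i, rfl⟩)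
        have h4 : ε' ∈ koszulSyz x := by
          apply ih
          · intro j hj
            have happ : (∑ k, c k • koszulVec x k i) j =
                (∑ k, c k * x k) * (if j = i then 1 else 0) - c j * x i := by
              simp only [Finset.sum_apply, Pi.smul_apply, koszulVec, Pi.sub_apply, smul_eq_mul,
                mul_sub, Finset.sum_sub_distrib, Pi.single_apply]
              rw [Finset.sum_mul]
              congr 1
              · exact Finset.sum_congr rfl fun k _ => by ring
              · simp
            rw [hε', Pi.sub_apply, happ]
            by_cases hji : j = i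
            · subst hji
              rw [hc _ (lt_irrefl _)]
              simp [hci]
            · have : m + 1 ≤ j.val := by
                have h4 : j.val ≠ m := fun h => hji (Fin.ext h)
                omega
              have h5 : ¬ j < i := by
                rw [hi, Fin.lt_def]; simp; omega
              rw [h j this, hc j h5]
              simp [hji]
          · have hk : ∀ k j, ∑ l, koszulVec x k j l * x l = 0 := by
              intro k j
              simp only [koszulVec, Pi.sub_apply, Pi.smul_apply, Pi.single_apply, smul_eq_mul,
                sub_mul, Finset.sum_sub_distrib]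
              simp [mul_comm]
            rw [hε']
            simp only [Pi.sub_apply, sub_mul, Finset.sum_sub_distrib, hsum, Finset.sum_apply,
              Pi.smul_apply, smul_eq_mul, Finset.sum_mul]
            rw [Finset.sum_comm]
            have : ∀ k, ∑ l, c k * koszulVec x k i l * x l = 0 := by
              intro k
              simp only [mul_assoc, ← Finset.mul_sum, hk, mul_zero]
            simp [this]
        have := add_mem h4 hkos
        rw [hε', sub_add_cancel] at this
        exact this
      · apply ih ε _ hsum
        intro j hj
        omega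
  intro ε hε
  exact key n ε (fun j hj => absurd j.2 (by omega)) hε

/-- replacing a row by a Koszul syzygy gives a determinant in the ideal generated by the other
entries of `M x`. -/
theorem det_updateRow_koszulVec_mem (x : Fin n → A) (M : Matrix (Fin n) (Fin n) A) (i : Fin n)
    (I : Ideal A) (hI : ∀ l, l ≠ i → (M *ᵥ x) l ∈ I) (k j : Fin n) :
    (M.updateRow i (koszulVec x k j)).det ∈ I := by
  have h1 : (M.updateRow i (koszulVec x k j)).det =
      x k * (M.updateRow i (Pi.single j 1)).det - x j * (M.updateRow i (Pi.single k 1)).det := by
    rw [koszulVec, sub_eq_add_neg, det_updateRow_add, det_updateRow_smul, ← neg_smul,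
      det_updateRow_smul]
    ring
  rw [h1]
  set P := M.updateRow i (Pi.single j 1) with hP
  -- adjugate identity
  have h2 : (adjugate P *ᵥ (P *ᵥ x)) k = P.det * x k := by
    rw [Matrix.mulVec_mulVec, adjugate_mul, smul_mulVec, one_mulVec]
    rfl
  have h3 : (P *ᵥ x) i = x j := by
    simp only [Matrix.mulVec, hP, dotProduct, updateRow_self]
    simp [Pi.single_apply]
  have h4 : ∀ l, l ≠ i → (P *ᵥ x) l ∈ I := by
    intro l hl
    have : (P *ᵥ x) l = (M *ᵥ x) l := by
      simp only [Matrix.mulVec, hP, dotProduct, updateRow_ne hl]
    rw [this]; exact hI l hl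
  have h5 : adjugate P k i = (M.updateRow i (Pi.single k 1)).det := by
    rw [adjugate_apply, hP, updateRow_idem]
  have h6 : (adjugate P *ᵥ (P *ᵥ x)) k =
      (M.updateRow i (Pi.single k 1)).det * x j +
        ∑ l ∈ Finset.univ.erase i, adjugate P k l * (P *ᵥ x) l := by
    rw [Matrix.mulVec, dotProduct, ← Finset.add_sum_erase _ _ (Finset.mem_univ i), h3, h5]
  have h7 : x k * P.det - x j * (M.updateRow i (Pi.single k 1)).det =
      ∑ l ∈ Finset.univ.erase i, adjugate P k l * (P *ᵥ x) l := by
    linear_combination h6 - h2
  rw [h7]
  exact Ideal.sum_mem _ fun l hl => Ideal.mul_mem_left _ _ (h4 l (Finset.ne_of_mem_erase hl))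

theorem det_updateRow_mem (x : Fin n → A) (M : Matrix (Fin n) (Fin n) A) (i : Fin n)
    (I : Ideal A) (hI : ∀ l, l ≠ i → (M *ᵥ x) l ∈ I) {ε : Fin n → A} (hε : ε ∈ koszulSyz x) :
    (M.updateRow i ε).det ∈ I := by
  induction hε using Submodule.span_induction with
  | mem v hv =>
    obtain ⟨k, j, rfl⟩ := hv
    exact det_updateRow_koszulVec_mem x M i I hI k j
  | zero =>
    have : (M.updateRow i 0).det = 0 := by
      apply det_eq_zero_of_row_eq_zero i
      intro j
      simp
    rw [this]; exact zero_mem _
  | add v w _ _ hv hw => rw [det_updateRow_add]; exact add_mem hv hw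
  | smul a v _ hv => rw [det_updateRow_smul]; exact Ideal.mul_mem_left _ _ hv

/-- **Independence of the matrix**: if `c x = c' x` then `det c ≡ det c'` modulo the entries. -/
theorem det_sub_det_mem {x : Fin n → A} (hx : KosExact x) (c c' : Matrix (Fin n) (Fin n) A)
    (I : Ideal A) (hc : ∀ l, (c *ᵥ x) l ∈ I) (hcc' : c *ᵥ x = c' *ᵥ x) :
    c.det - c'.det ∈ I := by
  classical
  -- replace rows one at a time
  let D : Finset (Fin n) → Matrix (Fin n) (Fin n) A := fun s => fun i => if i ∈ s then c' i else c i
  have hD : ∀ s l, (D s *ᵥ x) l ∈ I := by
    intro s l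
    by_cases h : l ∈ s
    · have : (D s *ᵥ x) l = (c' *ᵥ x) l := by
        simp only [Matrix.mulVec, D, if_pos h]
      rw [this, ← hcc']; exact hc l
    · have : (D s *ᵥ x) l = (c *ᵥ x) l := by
        simp only [Matrix.mulVec, D, if_neg h]
      rw [this]; exact hc l
  have key : ∀ s : Finset (Fin n), c.det - (D s).det ∈ I := by
    intro s
    induction s using Finset.induction_on with
    | empty =>
      have : D ∅ = c := by funext i; simp [D]
      rw [this, sub_self]; exact zero_mem _
    | insert i s hi ih =>
      have h1 : D (insert i s) = (D s).updateRow i (c' i) := by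
        funext j
        by_cases hj : j = i
        · subst hj; simp [D]
        · rw [updateRow_ne hj]
          simp [D, hj]
      have h2 : (D s).updateRow i (c i) = D s := by
        have : c i = D s i := by simp [D, hi]
        rw [this, updateRow_eq_self]
      have h3 : c' i - c i ∈ koszulSyz x := by
        apply hx
        have := congrFun hcc' i
        simp only [Matrix.mulVec, dotProduct] at this
        simp only [Pi.sub_apply, sub_mul, Finset.sum_sub_distrib, ← this, sub_self]
      have h4 := det_updateRow_mem x (D s) i I (fun l _ => hD s l) h3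
      have h5 : ((D s).updateRow i (c' i)).det =
          ((D s).updateRow i (c i)).det + ((D s).updateRow i (c' i - c i)).det := by
        rw [← det_updateRow_add, add_sub_cancel]
      rw [h1, h5, h2]
      have := sub_mem ih h4
      have h6 : c.det - (D s).det - ((D s).updateRow i (c' i - c i)).det =
        c.det - ((D s).det + ((D s).updateRow i (c' i - c i)).det) := by ring
      rwa [h6] at this
  have hfin : D Finset.univ = c' := by funext i; simp [D]
  have := key Finset.univ
  rwa [hfin] at this

end indep

end Fermat.Agent.RT.NC
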